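import Fermat.Agent.S56.Flat.PmField
import Fermat.Agent.S56.Flat.Passage.Main

/-!
# PROJECT T (S56), block (a3) `S56/Flat`, `Main/KummerLevel` (helper16)

The composite of the two halves of the Fontaine bound: a locally flat group `T` killed by `p` cuts
out a finite Galois extension `LV` of `ℚ_p` with Fontaine's property `(P_m)` (helper15,
`PmField.exists_fontaineField`), and `(P_m)` bounds the Kummer levels of `F ⊔ LV` over any finite
`F ∋ ζ_p` (helper7, `Passage.Main.kummer_level`).  This is the hypothesis `hKL` of the counting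
blocks (helper27's `KummerLevelPrinciple`), as a theorem.
-/

set_option autoImplicit false
set_option linter.style.haveILetI false

noncomputable section

namespace Fermat.Agent.S56.Flat.Main

open Fermat.Agent.S56.Flat.Dict Fermat.Agent.CFT.LocalBridge

variable {p : ℕ} [Fact p.Prime]

local notation "Ω" => PadicAlgCl p

/-- **The Kummer level principle.** -/
theorem kummerLevel_of_isLocFlat (hp2 : p ≠ 2) {ζ : Ω} (hζ : IsPrimitiveRoot ζ p)
    {T : Type} [AddCommGroup T] [Finite T] (act : LocGal p → T → T) (hT : IsLocFlat p act)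
    (hpT : ∀ t : T, p • t = 0) :
    ∃ LV : IntermediateField ℚ_[p] Ω, FiniteDimensional ℚ_[p] LV ∧
      (∀ σ ∈ LV.fixingSubgroup, ∀ t, act σ t = t) ∧
      ∀ (F : IntermediateField ℚ_[p] Ω), FiniteDimensional ℚ_[p] F → ζ ∈ F →
        ∀ u y : Ω, u ∈ F → u ≠ 0 → y ∈ F ⊔ LV → y ^ p = u →
          ∃ a x : Ω, a ∈ F ∧ a ≠ 0 ∧ x ∈ F ∧ ‖x‖ ≤ 1 ∧ u = a ^ p * (1 + p * x) := by
  obtain ⟨LV, hfd, hgal, hfix, hP⟩ :=
    Fermat.Agent.S56.Flat.PmField.exists_fontaineField p act hT hpT
  refine ⟨LV, hfd, fun σ hσ => (hfix σ).1 hσ, fun F hF hζF u y hu hu0 hy hyu => ?_⟩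
  haveI := hfd
  haveI := hgal
  haveI := hF
  exact Fermat.Agent.S56.Flat.Passage.Main.kummer_level hp2 LV hP F hζF hζ hu hu0 hy hyu

end Fermat.Agent.S56.Flat.Main
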