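import Fermat.Agent.S56.Flat.Main.Seams
import Fermat.Agent.S56.Flat.Main.KummerLevel
import Fermat.Agent.S56.Flat.CharTable
import Fermat.Agent.S56.Flat.CaseB

/-!
# PROJECT T (S56), block (a3) `S56/Flat`, `Main/Export` (helper16)

**The flat upper bound** `#(Lc_p^fl / B¹(D_p, M)) ≤ #k · #H⁰(D_p, M)`, in the export shape of the
upper-bound blocks, from the hypotheses of S56 (`hp2`, `hdet`, `hsplit`) and a matrix model
`(b, rbar, hb)` of `ρbar`.
-/

set_option autoImplicit false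
set_option linter.unusedSectionVars false
set_option linter.style.haveILetI false

noncomputable section

namespace Fermat.Agent.S56.Flat.Main

open Fermat.Agent.S56.Flat.Dict Fermat.Agent.S56.Flat.Dev Fermat.Agent.CFT.LocalBridge
open Fermat.Agent.CFT.LC Fermat.Agent.CFT.Bridge Fermat.Agent.S56.Coh
open Fermat.Agent.S56.Coh.CocDefs
open Fermat.Agent.S53.Dictionary hiding GQ
open Fermat.Agent.S53.TangentBound
open Matrix Polynomial

variable {p : ℕ} [Fact p.Prime] {k : Type} [Field k] [Finite k] [CharP k p]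

/-- the Kummer level principle holds -/
theorem kummerLevelPrinciple (hp2 : p ≠ 2) {ζ : PadicAlgCl p} (hζ : IsPrimitiveRoot ζ p) :
    Fermat.Agent.S56.Flat.FB.KummerLevelPrinciple p ζ :=
  fun act hT hpT => kummerLevel_of_isLocFlat hp2 hζ act hT hpT

/-- **the character seam** (helper27's `CharTable`) -/
theorem seamChar (hp2 : p ≠ 2) : SeamChar p k := by
  obtain ⟨ζ, hζ⟩ := exists_primitiveRoot_p (p := p)
  intro χ' χ'' _
  exact ⟨Fermat.Agent.S56.Flat.CharTable.extBound_sq hζ (kummerLevelPrinciple hp2 hζ) χ' χ'',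
    Fermat.Agent.S56.Flat.CharTable.extBound_of_ne hζ (kummerLevelPrinciple hp2 hζ) χ' χ''⟩

/-- **the irreducible seam** (helper27's `CaseB`) -/
theorem seamIrr (hp2 : p ≠ 2) : SeamIrr p k := by
  rintro rb ⟨F, ζ, hfd, hgal, hζ, hζF, hpF, hF⟩ hirr heig hdet
  haveI := hfd
  haveI := hgal
  exact Fermat.Agent.S56.Flat.CaseB.caseB_finite hp2 hζ (kummerLevelPrinciple hp2 hζ) rb F hζF hpF
    hF hirr heig hdet

/-- **(a3): the flat upper bound**, in the export shape of the upper-bound blocks. -/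
theorem card_LcOf_fl_le (hp2 : p ≠ 2) (ρbar : ResidualGaloisRep k)
    (hdet : (GaloisRepAdic.ofResidualGaloisRep ρbar).DetIsCyclotomic p)
    (hsplit : ∀ σ : AlgebraicClosure ℚ ≃ₐ[ℚ] AlgebraicClosure ℚ,
      ∃ α β : k, LinearMap.charpoly (ρbar.ρ σ) = (X - C α) * (X - C β))
    (b : Module.Basis (Fin 2) k ρbar.V) (rbar : GQ →* GL (Fin 2) k)
    (hb : ∀ g, (rbar g : Matrix (Fin 2) (Fin 2) k) = LinearMap.toMatrix b b (ρbar.ρ g)) :
    Finite (LocQuot p (Mrep rbar) (LcOf rbar (Pfl p) p)) ∧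
      Nat.card (LocQuot p (Mrep rbar) (LcOf rbar (Pfl p) p)) ≤
        Nat.card k * Nat.card (Fix p (Mrep rbar)) :=
  card_LcOf_fl_le_of_counting_seams hp2 ρbar hdet hsplit b rbar hb (seamChar hp2) (seamIrr hp2)

end Fermat.Agent.S56.Flat.Main
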