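import Fermat.Agent.S56.Flat.TameChar.Main

/-!
# S56, block (a3) `Flat`, leaf (F-ab): abelian prime-to-`p` characters on inertia

`χ : LocGal p →* A` with open kernel, `A` finite commutative of order prime to `p`.  An element of
the local inertia group which fixes a primitive `p`-th root of unity lies in `ker χ`
(`eq_one_of_mem_inertia_of_fix`): on inertia, `χ` factors through the mod `p` cyclotomic character.
-/

set_option autoImplicit false

noncomputable section

namespace Fermat.Agent.S56.Flat.Main.CharInertia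

open Fermat.Agent.CFT.LocalBridge Fermat.Agent.CFT.Local.PadicAlgClLocal IntermediateField

variable {p : ℕ} [Fact p.Prime]

local notation "Ω" => PadicAlgCl p

/-- **(F-ab).** -/
theorem eq_one_of_mem_inertia_of_fix {A : Type*} [CommGroup A] [Finite A]
    (hA : ¬ p ∣ Nat.card A) (χ : LocGal p →* A)
    (LV : IntermediateField ℚ_[p] Ω) [FiniteDimensional ℚ_[p] LV]
    (hLV : LV.fixingSubgroup ≤ χ.ker) {ζ : Ω} (hζ : IsPrimitiveRoot ζ p)
    {s : LocGal p} (hs : s ∈ localInertia p) (hsζ : s ζ = ζ) : χ s = 1 := by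
  obtain ⟨K', -, hK', -, hker⟩ :=
    TameChar.Main.exists_unramified_trivializing hA χ LV hLV hζ
  refine MonoidHom.mem_ker.mp (hker ?_)
  rw [IntermediateField.fixingSubgroup_sup]
  have h1 : s ∈ K'.fixingSubgroup := by
    -- `K'` is unramified, hence fixed pointwise by inertia
    rw [localInertia_eq_fixingSubgroup] at hs
    exact IntermediateField.fixingSubgroup_antitone hK' hs
  have h2 : s ∈ (ℚ_[p]⟮ζ⟯).fixingSubgroup := by
    -- `s` fixes `ζ`, hence `ℚ_p(ζ)`
    rw [mem_fixingSubgroup_adjoin_iff]
    intro x hx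
    rw [Set.mem_singleton_iff] at hx
    rw [hx, hsζ]
  exact ⟨h1, h2⟩

end Fermat.Agent.S56.Flat.Main.CharInertia
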