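import Fermat.Agent.CFT.LocalBridge.Inertia

/-!
# PROJECT T (S56), block (a3) `S56/Flat`, `Main/Omega` (helper16)

The mod `p` cyclotomic character of `LocGal p`, in the elementary style of the Prelude's
`DetIsCyclotomic`: `ActsOnMuP s a` says that `s` acts on the `p`-th roots of unity of
`PadicAlgCl p` by `z ↦ z ^ a`.

* `ActsOnMuP`, `NeOmegaOnInertia` (the seam with the character count);
* `ActsOnMuP.mul`, `ActsOnMuP.congr`, `exists_actsOnMuP`, `ActsOnMuP.natCast_eq`,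
  `ActsOnMuP.natCast_ne_zero`;
* `DetIsOmega`, `HasStableLine`, `HasEigenvectors` for `rb : LocGal p →* GL₂(k)`.
-/

set_option autoImplicit false
set_option linter.style.haveILetI false

namespace Fermat.Agent.S56.Flat.Main

open Fermat.Agent.CFT.LocalBridge

variable {p : ℕ} [Fact p.Prime]

/-- `s` acts on the `p`-th roots of unity by `z ↦ z ^ a`. -/
def ActsOnMuP (s : LocGal p) (a : ℕ) : Prop :=
  ∀ z : PadicAlgCl p, z ^ p = 1 → s z = z ^ a

/-- `ψ` differs from the mod `p` cyclotomic character somewhere on inertia. -/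
def NeOmegaOnInertia {k : Type} [Field k] (ψ : LocGal p → k) : Prop :=
  ∃ s ∈ localInertia p, ∃ a : ℕ, ActsOnMuP s a ∧ ψ s ≠ (a : k)

theorem ActsOnMuP.mul {s t : LocGal p} {a b : ℕ} (hs : ActsOnMuP s a) (ht : ActsOnMuP t b) :
    ActsOnMuP (s * t) (a * b) := by
  intro z hz
  rw [AlgEquiv.mul_apply, ht z hz, map_pow, hs z hz, ← pow_mul]

theorem actsOnMuP_one : ActsOnMuP (1 : LocGal p) 1 := by
  intro z _
  rw [AlgEquiv.one_apply, pow_one]

theorem ActsOnMuP.congr {s : LocGal p} {a b : ℕ} (hs : ActsOnMuP s a) (hab : a ≡ b [MOD p]) :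
    ActsOnMuP s b := by
  intro z hz
  rw [hs z hz, ← Nat.mod_add_div a p, ← Nat.mod_add_div b p, pow_add, pow_add, pow_mul, pow_mul,
    hz, one_pow, one_pow, mul_one, mul_one]
  rw [hab]

/-- a primitive `p`-th root of unity of `PadicAlgCl p` -/
theorem exists_primitiveRoot_p : ∃ ζ : PadicAlgCl p, IsPrimitiveRoot ζ p := by
  haveI : NeZero p := ⟨(Fact.out : p.Prime).ne_zero⟩
  exact HasEnoughRootsOfUnity.exists_primitiveRoot (PadicAlgCl p) p

theorem actsOnMuP_of_primitiveRoot {ζ : PadicAlgCl p} (hζ : IsPrimitiveRoot ζ p) {s : LocGal p}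
    {a : ℕ} (h : s ζ = ζ ^ a) : ActsOnMuP s a := by
  intro z hz
  haveI : NeZero p := ⟨(Fact.out : p.Prime).ne_zero⟩
  obtain ⟨i, _, rfl⟩ := hζ.eq_pow_of_pow_eq_one hz
  rw [map_pow, h, ← pow_mul, ← pow_mul, mul_comm]

/-- every automorphism acts on `μ_p` by some power -/
theorem exists_actsOnMuP (s : LocGal p) : ∃ a : ℕ, ActsOnMuP s a := by
  haveI : NeZero p := ⟨(Fact.out : p.Prime).ne_zero⟩
  obtain ⟨ζ, hζ⟩ := exists_primitiveRoot_p (p := p)
  have h1 : (s ζ) ^ p = 1 := by rw [← map_pow, hζ.pow_eq_one, map_one]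
  obtain ⟨a, _, ha⟩ := hζ.eq_pow_of_pow_eq_one h1
  exact ⟨a, actsOnMuP_of_primitiveRoot hζ ha.symm⟩

theorem ActsOnMuP.not_dvd {s : LocGal p} {a : ℕ} (hs : ActsOnMuP s a) : ¬ p ∣ a := by
  rintro ⟨c, rfl⟩
  obtain ⟨ζ, hζ⟩ := exists_primitiveRoot_p (p := p)
  have h1 := hs ζ hζ.pow_eq_one
  rw [pow_mul, hζ.pow_eq_one, one_pow] at h1
  have h2 : ζ = 1 := by
    have := s.injective (h1.trans (map_one s).symm)
    exact this
  exact hζ.ne_one (Fact.out : p.Prime).one_lt h2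

theorem ActsOnMuP.modEq {s : LocGal p} {a b : ℕ} (ha : ActsOnMuP s a) (hb : ActsOnMuP s b) :
    a ≡ b [MOD p] := by
  obtain ⟨ζ, hζ⟩ := exists_primitiveRoot_p (p := p)
  have h1 : ζ ^ a = ζ ^ b := (ha ζ hζ.pow_eq_one).symm.trans (hb ζ hζ.pow_eq_one)
  have hfin : IsOfFinOrder ζ :=
    isOfFinOrder_iff_pow_eq_one.2 ⟨p, (Fact.out : p.Prime).pos, hζ.pow_eq_one⟩
  have h2 := hfin.pow_eq_pow_iff_modEq.1 h1
  rwa [← hζ.eq_orderOf] at h2

section Cast

variable {k : Type} [Field k] [CharP k p]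

theorem ActsOnMuP.natCast_eq {s : LocGal p} {a b : ℕ} (ha : ActsOnMuP s a) (hb : ActsOnMuP s b) :
    (a : k) = (b : k) :=
  (CharP.natCast_eq_natCast k p).2 (ha.modEq hb)

theorem ActsOnMuP.natCast_ne_zero {s : LocGal p} {a : ℕ} (ha : ActsOnMuP s a) : (a : k) ≠ 0 := by
  rw [Ne, CharP.cast_eq_zero_iff k p]
  exact ha.not_dvd

theorem natCast_eq_one_iff (a : ℕ) : (a : k) = 1 ↔ (a : ZMod p) = 1 := by
  have h1 : (a : k) = 1 ↔ a ≡ 1 [MOD p] := by
    rw [← CharP.natCast_eq_natCast k p, Nat.cast_one]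
  have h2 : (a : ZMod p) = 1 ↔ a ≡ 1 [MOD p] := by
    rw [← ZMod.natCast_eq_natCast_iff, Nat.cast_one]
  rw [h1, h2]

theorem natCast_sq_eq_one_iff (a : ℕ) : (a : k) ^ 2 = 1 ↔ (a : ZMod p) ^ 2 = 1 := by
  have := natCast_eq_one_iff (p := p) (k := k) (a ^ 2)
  rwa [Nat.cast_pow, Nat.cast_pow] at this

end Cast

/-! ### the hypotheses of the irreducible case, for `rb : LocGal p →* GL₂(k)` -/

section Rep

variable {k : Type} [Field k]

/-- the determinant of `rb` is the mod `p` cyclotomic character -/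
def DetIsOmega (rb : LocGal p →* GL (Fin 2) k) : Prop :=
  ∀ (s : LocGal p) (a : ℕ), ActsOnMuP s a → (rb s : Matrix (Fin 2) (Fin 2) k).det = (a : k)

/-- `rb` stabilises a line of `k²` -/
def HasStableLine (rb : LocGal p →* GL (Fin 2) k) : Prop :=
  ∃ v : Fin 2 → k, v ≠ 0 ∧
    ∀ g, ∃ a : k, Matrix.mulVec (rb g : Matrix (Fin 2) (Fin 2) k) v = a • v

/-- every `rb g` has an eigenvector over `k` -/
def HasEigenvectors (rb : LocGal p →* GL (Fin 2) k) : Prop :=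
  ∀ g, ∃ v : Fin 2 → k, v ≠ 0 ∧
    ∃ a : k, Matrix.mulVec (rb g : Matrix (Fin 2) (Fin 2) k) v = a • v

end Rep

end Fermat.Agent.S56.Flat.Main
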