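import Fermat.Agent.S56.Flat.Main.Irred
import Fermat.Agent.S56.Flat.Main.Omega
import Fermat.Agent.S56.Flat.FieldOfHom

/-!
# PROJECT T (S56), block (a3) `S56/Flat`, `Main/TameField` (helper16)

The tame field of the irreducible case.  `rb : LocGal p →* GL₂(k)` continuous, without stable
line, every `rb g` with an eigenvector over `k`, and its image with a chain "normal `p`-group,
cyclic, cyclic" (the shape of every finite quotient of a local Galois group).  Then `p ∤ #im rb`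
(`Irred.not_dvd_card_of_chain`), and the field `F` cut out by `rb × ω` is a finite Galois
extension of `ℚ_p` of degree prime to `p` containing `ζ_p` on whose fixing subgroup `rb` is
trivial.
-/

set_option autoImplicit false
set_option linter.unusedSectionVars false
set_option linter.style.haveILetI false

noncomputable section

namespace Fermat.Agent.S56.Flat.Main

open Fermat.Agent.CFT.LocalBridge Matrix IntermediateField

variable {p : ℕ} [Fact p.Prime] {k : Type} [Field k]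

local notation "Ω" => PadicAlgCl p

/-- the shape of a finite quotient of a local Galois group: a normal `p`-subgroup `W`, then a
cyclic step `τ` (normal modulo `W`), then a cyclic step `φ` -/
def ChainFor (rb : LocGal p →* GL (Fin 2) k) : Prop :=
  ∃ (W : Subgroup (GL (Fin 2) k)) (τ φ : GL (Fin 2) k), IsPGroup p W ∧ τ ∈ rb.range ∧
    φ ∈ rb.range ∧ (∀ g ∈ rb.range, ∀ w ∈ W, g * w * g⁻¹ ∈ W) ∧
    (∀ g ∈ rb.range, g * τ * g⁻¹ ∈ W ⊔ Subgroup.zpowers τ) ∧
    rb.range ≤ Subgroup.closure ((W : Set (GL (Fin 2) k)) ∪ {τ, φ})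

/-- a finite Galois extension of `ℚ_p` of degree prime to `p`, containing a primitive `p`-th root
of unity, on whose fixing subgroup `rb` is trivial -/
def TameFieldFor (rb : LocGal p →* GL (Fin 2) k) : Prop :=
  ∃ (F : IntermediateField ℚ_[p] Ω) (ζ : Ω), FiniteDimensional ℚ_[p] F ∧ IsGalois ℚ_[p] F ∧
    IsPrimitiveRoot ζ p ∧ ζ ∈ F ∧ ¬ p ∣ Module.finrank ℚ_[p] F ∧
    ∀ σ ∈ F.fixingSubgroup, rb σ = 1

/-- the mod `p` cyclotomic character is trivial exactly on the automorphisms fixing `ζ` -/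
theorem autToPow_eq_one_iff {ζ : Ω} (hζ : IsPrimitiveRoot ζ p) (σ : LocGal p) :
    hζ.autToPow ℚ_[p] σ = 1 ↔ σ ζ = ζ := by
  haveI : NeZero p := ⟨(Fact.out : p.Prime).ne_zero⟩
  haveI : Fact (1 < p) := ⟨(Fact.out : p.Prime).one_lt⟩
  have hspec := hζ.autToPow_spec ℚ_[p] σ
  constructor
  · intro h
    rw [h, Units.val_one, ZMod.val_one, pow_one] at hspec
    exact hspec.symm
  · intro h
    rw [h] at hspec
    have hfin : IsOfFinOrder ζ :=
      isOfFinOrder_iff_pow_eq_one.2 ⟨p, (Fact.out : p.Prime).pos, hζ.pow_eq_one⟩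
    have h2 : ζ ^ ((hζ.autToPow ℚ_[p] σ : (ZMod p)ˣ) : ZMod p).val = ζ ^ 1 := by
      rw [hspec, pow_one]
    have h3 := hfin.pow_eq_pow_iff_modEq.1 h2
    rw [← hζ.eq_orderOf] at h3
    have h4 : ((((hζ.autToPow ℚ_[p] σ : (ZMod p)ˣ) : ZMod p).val : ℕ) : ZMod p) = ((1 : ℕ) : ZMod p) :=
      (ZMod.natCast_eq_natCast_iff _ _ _).2 h3
    rw [ZMod.natCast_zmod_val, Nat.cast_one] at h4
    exact Units.ext h4

section Main

variable [Finite k] [CharP k p]

/-- **the tame field of the irreducible case** -/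
theorem exists_tame_field (hp2 : p ≠ 2) (rb : LocGal p →* GL (Fin 2) k)
    (LV : IntermediateField ℚ_[p] Ω) [FiniteDimensional ℚ_[p] LV]
    (hLV : ∀ σ ∈ LV.fixingSubgroup, rb σ = 1) (hirr : ¬ HasStableLine rb)
    (heig : HasEigenvectors rb) (hchain : ChainFor rb) : TameFieldFor rb := by
  obtain ⟨W, τ, φ, hWp, hτ, hφ, hWn, hτn, hgen⟩ := hchain
  obtain ⟨ζ, hζ⟩ := exists_primitiveRoot_p (p := p)
  -- `p ∤ #im rb`
  have hnd : ¬ p ∣ Nat.card ↥rb.range := by
    refine Irred.not_dvd_card_of_chain hp2 ?_ ?_ W hWp hτ hφ hWn hτn hgen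
    · rintro ⟨v, hv, hst⟩
      exact hirr ⟨v, hv, fun g => hst (rb g) ⟨g, rfl⟩⟩
    · rintro _ ⟨g, rfl⟩
      exact heig g
  -- the character `rb × ω`
  let ω : LocGal p →* (ZMod p)ˣ := hζ.autToPow ℚ_[p]
  let χ : LocGal p →* GL (Fin 2) k × (ZMod p)ˣ := rb.prod ω
  have hζint : IsIntegral ℚ_[p] ζ :=
    IsIntegral.of_pow (Fact.out : p.Prime).pos (by rw [hζ.pow_eq_one]; exact isIntegral_one)
  haveI : FiniteDimensional ℚ_[p] ℚ_[p]⟮ζ⟯ := IntermediateField.adjoin.finiteDimensional hζint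
  haveI : FiniteDimensional ℚ_[p] ↥(LV ⊔ ℚ_[p]⟮ζ⟯) :=
    IntermediateField.finiteDimensional_sup LV ℚ_[p]⟮ζ⟯
  have hker : ∀ σ : LocGal p, σ ∈ χ.ker ↔ rb σ = 1 ∧ σ ζ = ζ := by
    intro σ
    rw [MonoidHom.mem_ker, MonoidHom.prod_apply, Prod.mk_eq_one, autToPow_eq_one_iff hζ σ]
  have hLV' : (LV ⊔ ℚ_[p]⟮ζ⟯).fixingSubgroup ≤ χ.ker := by
    intro σ hσ
    rw [IntermediateField.mem_fixingSubgroup_iff] at hσ
    rw [hker]
    refine ⟨hLV σ ?_, hσ ζ ?_⟩
    · rw [IntermediateField.mem_fixingSubgroup_iff]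
      exact fun x hx => hσ x ((le_sup_left : LV ≤ LV ⊔ ℚ_[p]⟮ζ⟯) hx)
    · exact (le_sup_right : ℚ_[p]⟮ζ⟯ ≤ LV ⊔ ℚ_[p]⟮ζ⟯) (IntermediateField.mem_adjoin_simple_self _ ζ)
  obtain ⟨F, hfd, hgal, hfix, hcard, hζF⟩ :=
    Fermat.Agent.S56.Flat.FieldOfHom.exists_field_of_hom_mem χ (LV ⊔ ℚ_[p]⟮ζ⟯) hLV'
      (fun σ hσ => ((hker σ).1 hσ).2)
  refine ⟨F, ζ, hfd, hgal, hζ, hζF, ?_, fun σ hσ => ?_⟩
  · rw [hcard]
    -- `χ.range ≤ rb.range × ω.range`
    haveI : Finite (GL (Fin 2) k) := inferInstance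
    have hle : χ.range ≤ rb.range.prod ω.range := by
      rintro _ ⟨σ, rfl⟩
      exact ⟨⟨σ, rfl⟩, ⟨σ, rfl⟩⟩
    have h1 : Nat.card ↥χ.range ∣ Nat.card ↥(rb.range.prod ω.range) :=
      Subgroup.card_dvd_of_le hle
    have h2 : Nat.card ↥(rb.range.prod ω.range) = Nat.card ↥rb.range * Nat.card ↥ω.range := by
      rw [Nat.card_congr (Subgroup.prodEquiv rb.range ω.range).toEquiv, Nat.card_prod]
    have h3 : Nat.card ↥ω.range ∣ p - 1 := by
      have h := Subgroup.card_subgroup_dvd_card ω.range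
      have hc : Nat.card (ZMod p)ˣ = p - 1 := by
        rw [Nat.card_eq_fintype_card, ZMod.card_units_eq_totient,
          Nat.totient_prime (Fact.out : p.Prime)]
      rwa [hc] at h
    intro hdvd
    have h4 : p ∣ Nat.card ↥rb.range * Nat.card ↥ω.range := h2 ▸ hdvd.trans h1
    rcases (Nat.Prime.dvd_mul (Fact.out : p.Prime)).1 h4 with h | h
    · exact hnd h
    · have h5 : p ∣ p - 1 := h.trans h3
      have hp1 := (Fact.out : p.Prime).one_lt
      have := Nat.le_of_dvd (by omega) h5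
      omega
  · rw [hfix] at hσ
    exact ((hker σ).1 hσ).1

end Main

end Fermat.Agent.S56.Flat.Main
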