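import Fermat.Agent.S56.Flat.Main.Reducible
import Fermat.Agent.S56.Flat.Main.TameField

/-!
# PROJECT T (S56), block (a3) `S56/Flat`, `Main/Flat` (helper16)

The final assembly of the flat upper bound
`#(Lc_p^fl / B¹(D_p, M)) ≤ #k · #H⁰(D_p, M)`
from the dévissage (`Dev`), the transport (`Main/Transport`), the reducible case
(`Main/Reducible`), the tame field of the irreducible case (`Main/TameField`) and the seams with
the counting blocks, which enter as explicit hypotheses (`SeamChar`, `SeamIrr`, the two facts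
about `ω` on inertia, the abelian tame fact, the chain).
-/

set_option autoImplicit false
set_option linter.unusedSectionVars false
set_option linter.style.haveILetI false

noncomputable section

namespace Fermat.Agent.S56.Flat.Main

open Fermat.Agent.S56.Flat.Dict Fermat.Agent.S56.Flat.Dev Fermat.Agent.CFT.LocalBridge
open Fermat.Agent.CFT.LC Fermat.Agent.CFT.Bridge Fermat.Agent.S56.Coh
open Fermat.Agent.S56.Coh.CocDefs
open Fermat.Agent.S53.Dictionary hiding GQ
open Fermat.Agent.S53.TangentBound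
open Matrix

variable {p : ℕ} [Fact p.Prime] {k : Type} [Field k]

local notation "Ω" => PadicAlgCl p

/-- **The seam with the irreducible count (S27-B).** -/
def SeamIrr (p : ℕ) [Fact p.Prime] (k : Type) [Field k] : Prop :=
  ∀ rb : LocGal p →* GL (Fin 2) k, TameFieldFor rb → ¬ HasStableLine rb → HasEigenvectors rb →
    DetIsOmega rb →
    ∃ S : Set (LocGal p → Matrix (Fin 2) (Fin 2) k), S.Finite ∧ S.ncard ≤ Nat.card k ^ 4 ∧
      ∀ c ∈ Zalg rb, IsLocFlat p (actV rb c) → c ∈ S

/-! ### conjugation -/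

theorem conjRep_one (rb : LocGal p →* GL (Fin 2) k) : conjRep rb 1 = rb := by
  refine MonoidHom.ext fun τ => ?_
  rw [conjRep_apply, inv_one, one_mul, mul_one]

theorem conjRep_conjRep (rb : LocGal p →* GL (Fin 2) k) (P Q : GL (Fin 2) k) :
    conjRep (conjRep rb P) Q = conjRep rb (P * Q) := by
  refine MonoidHom.ext fun τ => ?_
  rw [conjRep_apply, conjRep_apply, conjRep_apply, _root_.mul_inv_rev]
  simp only [mul_assoc]

theorem DetIsOmega.conj {rb : LocGal p →* GL (Fin 2) k} (h : DetIsOmega rb) (P : GL (Fin 2) k) :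
    DetIsOmega (conjRep rb P) := by
  intro s a ha
  rw [conjRep_coe, Matrix.det_mul, Matrix.det_mul, ← h s a ha]
  have h1 : (((P⁻¹ : GL (Fin 2) k) : Matrix (Fin 2) (Fin 2) k)).det *
      ((P : Matrix (Fin 2) (Fin 2) k)).det = 1 := by
    rw [← Matrix.det_mul, ← Units.val_mul, inv_mul_cancel, Units.val_one, Matrix.det_one]
  linear_combination (rb s : Matrix (Fin 2) (Fin 2) k).det * h1

/-- a stable line gives an upper triangular conjugate -/
theorem exists_isUT_of_stableLine {rb : LocGal p →* GL (Fin 2) k} (h : HasStableLine rb) :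
    ∃ P : GL (Fin 2) k, IsUT (conjRep rb P) := by
  obtain ⟨v, hv, hst⟩ := h
  -- a second vector
  obtain ⟨u, hu⟩ : ∃ u : Fin 2 → k, v 0 * u 1 - u 0 * v 1 ≠ 0 := by
    by_cases h0 : v 0 = 0
    · have h1 : v 1 ≠ 0 := by
        intro h1
        apply hv
        ext i
        fin_cases i
        · exact h0
        · exact h1
      refine ⟨![1, 0], ?_⟩
      simpa [h0] using h1
    · refine ⟨![0, 1], ?_⟩
      simpa using h0
  let M : Matrix (Fin 2) (Fin 2) k := !![v 0, u 0; v 1, u 1]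
  have hM : M.det ≠ 0 := by
    rw [Matrix.det_fin_two]
    simpa [M] using hu
  let P : GL (Fin 2) k := Matrix.GeneralLinearGroup.mkOfDetNeZero M hM
  have hPe : (P : Matrix (Fin 2) (Fin 2) k) *ᵥ (Pi.single 0 1) = v := by
    rw [Matrix.mulVec_single_one]
    ext i
    fin_cases i <;> simp [P, M]
  refine ⟨P, fun g => ?_⟩
  obtain ⟨a, ha⟩ := hst g
  have h1 : (conjRep rb P g : Matrix (Fin 2) (Fin 2) k) *ᵥ (Pi.single 0 1) =
      a • (Pi.single 0 1 : Fin 2 → k) := by
    rw [conjRep_coe, ← Matrix.mulVec_mulVec, ← Matrix.mulVec_mulVec, hPe, ha, Matrix.mulVec_smul,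
      ← hPe, GL_mulVec_inv_cancel]
  have h2 := congrFun h1 1
  rw [Matrix.mulVec_single_one] at h2
  simpa using h2

/-! ### the irreducible case -/

section Cases

variable [Finite k] [CharP k p]

/-- **Case B**: no stable line. -/
theorem card_flatZ_quot_le_of_irred (rb : LocGal p →* GL (Fin 2) k)
    (hflat : IsLocFlat p (actbar rb)) (hSI : SeamIrr p k) (htame : TameFieldFor rb)
    (hirr : ¬ HasStableLine rb) (heig : HasEigenvectors rb) (hdet : DetIsOmega rb) :
    Finite (↥(flatZ rb hflat) ⧸ (Balg rb).comap (flatZ rb hflat).subtype) ∧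
      Nat.card (↥(flatZ rb hflat) ⧸ (Balg rb).comap (flatZ rb hflat).subtype) ≤
        Nat.card k * Nat.card ↥(H0alg rb) := by
  have hq : 0 < Nat.card k := Nat.card_pos
  obtain ⟨S, hSf, hSc, hSm⟩ := hSI rb htame hirr heig hdet
  obtain ⟨hfin, hle⟩ := card_flatZ_quot_le_of_subset rb hflat S hSf
    (fun c hc => hSm c hc.2 hc.1)
  refine ⟨hfin, ?_⟩
  refine Nat.le_of_mul_le_mul_right ((hle.trans (Nat.mul_le_mul_right _ hSc)).trans
    (le_of_eq ?_)) (pow_pos hq 3)
  ring

/-- `p ∤ #kˣ` -/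
theorem not_dvd_card_units (p : ℕ) [Fact p.Prime] (k : Type) [Field k] [Finite k] [CharP k p] :
    ¬ p ∣ Nat.card kˣ := by
  classical
  haveI : Fintype k := Fintype.ofFinite k
  obtain ⟨n, hn⟩ := FiniteField.card k p
  have h1 : Nat.card kˣ = Nat.card k - 1 := by
    rw [Nat.card_eq_fintype_card, Nat.card_eq_fintype_card, Fintype.card_units]
  have h2 : Nat.card k = p ^ (n : ℕ) := by
    rw [Nat.card_eq_fintype_card, hn.2]
  rw [h1, h2]
  intro hdvd
  have hp1 := (Fact.out : p.Prime).one_lt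
  have hpn : p ∣ p ^ (n : ℕ) := dvd_pow_self p n.pos.ne'
  have hpos : 0 < p ^ (n : ℕ) := pow_pos (Fact.out : p.Prime).pos _
  have h3 : p ∣ 1 := by
    have := (Nat.dvd_sub hpn hdvd)
    rwa [Nat.sub_sub_self hpos] at this
  have := Nat.le_of_dvd one_pos h3
  omega

end Cases

/-! ### the final assembly -/

section Final

variable [Finite k] [CharP k p] (rbar : GQ →* GL (Fin 2) k)

/-- continuity: a finite local level on which `locRep rbar` is trivial -/
theorem exists_LV_of_hcont (hcont : ∃ U ∈ levelsAll.sets, ∀ s ∈ U, rbar s = 1) :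
    ∃ LV : IntermediateField ℚ_[p] Ω, FiniteDimensional ℚ_[p] LV ∧
      ∀ σ ∈ LV.fixingSubgroup, locRep (p := p) rbar σ = 1 := by
  obtain ⟨U, ⟨_, F, hF, rfl⟩, hU⟩ := hcont
  haveI := hF
  exact ⟨localLevel p F, inferInstance, fun σ hσ =>
    hU _ ((mem_fixingSubgroup_localLevel_iff p F σ).1 hσ)⟩

/-- the bound in the local model, after a suitable change of basis -/
theorem exists_P_card_le (hp2 : p ≠ 2)
    (hflat0 : IsLocFlat p (actbar (locRep (p := p) rbar)))
    (LV : IntermediateField ℚ_[p] Ω) [FiniteDimensional ℚ_[p] LV]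
    (hLV : ∀ σ ∈ LV.fixingSubgroup, locRep (p := p) rbar σ = 1)
    (heig : HasEigenvectors (locRep (p := p) rbar)) (hdet : DetIsOmega (locRep (p := p) rbar))
    (hSC : SeamChar p k) (hSI : SeamIrr p k)
    (hOR : ∃ s ∈ localInertia p, ∃ a : ℕ, ActsOnMuP s a ∧ (a : ZMod p) ≠ 1)
    (hO2 : 5 ≤ p → ∃ s ∈ localInertia p, ∃ a : ℕ, ActsOnMuP s a ∧ (a : ZMod p) ^ 2 ≠ 1)
    (hFab : ∀ (χ : LocGal p →* kˣ) (LV : IntermediateField ℚ_[p] Ω),
      FiniteDimensional ℚ_[p] LV → LV.fixingSubgroup ≤ χ.ker →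
      ∀ s ∈ localInertia p, ActsOnMuP s 1 → χ s = 1)
    (hchain : ¬ HasStableLine (locRep (p := p) rbar) → ChainFor (locRep (p := p) rbar)) :
    ∃ (P : GL (Fin 2) k) (hflat : IsLocFlat p (actbar (rbP rbar P))),
      Finite (↥(flatZ (rbP rbar P) hflat) ⧸
        (Balg (rbP rbar P)).comap (flatZ (rbP rbar P) hflat).subtype) ∧
      Nat.card (↥(flatZ (rbP rbar P) hflat) ⧸
        (Balg (rbP rbar P)).comap (flatZ (rbP rbar P) hflat).subtype) ≤
        Nat.card k * Nat.card ↥(H0alg (rbP (p := p) rbar P)) := by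
  by_cases hst : HasStableLine (locRep (p := p) rbar)
  · -- Case A
    obtain ⟨P₁, hUT₁⟩ := exists_isUT_of_stableLine hst
    have key : ∃ P : GL (Fin 2) k, IsUT (rbP (p := p) rbar P) ∧
        (p = 3 → (∀ s ∈ localInertia p, chi1 (rbP (p := p) rbar P) s = 1) →
          ∀ s ∈ localInertia p, chi2 (rbP (p := p) rbar P) s = 1) := by
      by_cases hg : p = 3 → (∀ s ∈ localInertia p, chi1 (rbP (p := p) rbar P₁) s = 1) →
          ∀ s ∈ localInertia p, chi2 (rbP (p := p) rbar P₁) s = 1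
      · exact ⟨P₁, hUT₁, hg⟩
      · push Not at hg
        obtain ⟨hp3, hunr, s, hs, hne⟩ := hg
        obtain ⟨Q, hUTQ, hc1, -⟩ := exists_swap hp3.ge hUT₁ (isLocFlat_actbar_conj P₁ hflat0)
          hunr ⟨s, hs, hne⟩
        have e : rbP (p := p) rbar (P₁ * Q) = conjRep (rbP (p := p) rbar P₁) Q :=
          (conjRep_conjRep _ P₁ Q).symm
        refine ⟨P₁ * Q, ?_, ?_⟩
        · rw [e]
          exact hUTQ
        · intro _ hunr'
          exfalso
          apply hne
          have := hunr' s hs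
          rw [e, hc1] at this
          exact this
    obtain ⟨P, hUT, hgood⟩ := key
    refine ⟨P, isLocFlat_actbar_conj P hflat0, ?_⟩
    have hLVP : ∀ σ ∈ LV.fixingSubgroup, rbP (p := p) rbar P σ = 1 := by
      intro σ hσ
      change conjRep (locRep (p := p) rbar) P σ = 1
      rw [conjRep_apply, hLV σ hσ, mul_one, inv_mul_cancel]
    refine card_flatZ_quot_le_of_UT_main hp2 _ _ hUT LV hLVP hSC (hdet.conj P) hOR hO2 ?_ hgood
    intro _ s hs ha1
    have hker : LV.fixingSubgroup ≤ (chiHom1 hUT).ker := fun σ hσ =>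
      MonoidHom.mem_ker.2 (chiHom1_eq_one hUT (hLVP σ hσ))
    have h1 := hFab (chiHom1 hUT) LV inferInstance hker s hs ha1
    rw [← congrFun (coe_chiHom1 hUT) s, h1, Units.val_one]
  · -- Case B
    have htame : TameFieldFor (locRep (p := p) rbar) :=
      exists_tame_field hp2 _ LV hLV hst heig (hchain hst)
    have aux : ∀ rb' : LocGal p →* GL (Fin 2) k, rb' = locRep (p := p) rbar →
        TameFieldFor rb' ∧ ¬ HasStableLine rb' ∧ HasEigenvectors rb' ∧ DetIsOmega rb' := by
      rintro _ rfl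
      exact ⟨htame, hst, heig, hdet⟩
    obtain ⟨h1, h2, h3, h4⟩ := aux (rbP (p := p) rbar 1) (conjRep_one _)
    exact ⟨1, isLocFlat_actbar_conj 1 hflat0,
      card_flatZ_quot_le_of_irred _ _ hSI h1 h2 h3 h4⟩

/-- **(a3): the flat upper bound**, with the seams as hypotheses. -/
theorem card_LcOf_fl_le_of_seams (hp2 : p ≠ 2)
    (heig : HasEigenvectors (locRep (p := p) rbar)) (hdet : DetIsOmega (locRep (p := p) rbar))
    (hSC : SeamChar p k) (hSI : SeamIrr p k)
    (hOR : ∃ s ∈ localInertia p, ∃ a : ℕ, ActsOnMuP s a ∧ (a : ZMod p) ≠ 1)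
    (hO2 : 5 ≤ p → ∃ s ∈ localInertia p, ∃ a : ℕ, ActsOnMuP s a ∧ (a : ZMod p) ^ 2 ≠ 1)
    (hFab : ∀ (χ : LocGal p →* kˣ) (LV : IntermediateField ℚ_[p] Ω),
      FiniteDimensional ℚ_[p] LV → LV.fixingSubgroup ≤ χ.ker →
      ∀ s ∈ localInertia p, ActsOnMuP s 1 → χ s = 1)
    (hchain : ¬ HasStableLine (locRep (p := p) rbar) → ChainFor (locRep (p := p) rbar)) :
    Finite (LocQuot p (Mrep rbar) (LcOf rbar (Pfl p) p)) ∧
      Nat.card (LocQuot p (Mrep rbar) (LcOf rbar (Pfl p) p)) ≤
        Nat.card k * Nat.card (Fix p (Mrep rbar)) := by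
  haveI hfinFix : Finite (Fix p (Mrep rbar)) := by
    haveI : Finite (Matrix (Fin 2) (Fin 2) k) := inferInstance
    haveI : Finite (sl2 k) := Subtype.finite
    exact Subtype.finite
  haveI : Nonempty (Fix p (Mrep rbar)) := ⟨⟨0, fun g => map_zero _⟩⟩
  have hposFix : 0 < Nat.card (Fix p (Mrep rbar)) := Nat.card_pos
  have hq : 0 < Nat.card k := Nat.card_pos
  by_cases hex : ∃ L : MatLift rbar, Pfl p (ofMat L.r L.cont)
  · obtain ⟨L, hL⟩ := hex
    have hcont : ∃ U ∈ levelsAll.sets, ∀ s ∈ U, rbar s = 1 := by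
      obtain ⟨U, hU, h⟩ := exists_level L
      exact ⟨U, hU, fun s hs => rbar_eq_one_of_eq_one L (h s hs)⟩
    have hflat0 : IsLocFlat p (actbar (locRep (p := p) rbar)) :=
      isLocFlat_actbar_of_actV (isLocFlat_actV_of_isFlatAt L hL.2)
    obtain ⟨LV, hLVfd, hLV⟩ := exists_LV_of_hcont (p := p) rbar hcont
    haveI := hLVfd
    obtain ⟨P, hflat, hfin, hle⟩ := exists_P_card_le rbar hp2 hflat0 LV hLV heig hdet hSC hSI
      hOR hO2 hFab hchain
    haveI := hfin
    obtain ⟨hfin', hle'⟩ := card_LcOf_quot_le rbar P hcont hflat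
    exact ⟨hfin', hle'.trans (hle.trans (Nat.mul_le_mul_left _ (card_H0alg_le rbar P)))⟩
  · -- no flat lift: the local condition consists of coboundaries
    have hle : LcOf rbar (Pfl p) p ≤ B1 (Dq p) (Mrep rbar) :=
      LcOf_le p _ le_rfl fun L hL => absurd ⟨L, hL⟩ hex
    have htop : (B1 (Dq p) (Mrep rbar)).comap (LcOf rbar (Pfl p) p).subtype = ⊤ :=
      Submodule.comap_subtype_eq_top.2 hle
    haveI : Subsingleton (LocQuot p (Mrep rbar) (LcOf rbar (Pfl p) p)) :=
      Submodule.Quotient.subsingleton_iff.2 htop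
    refine ⟨inferInstance, ?_⟩
    calc Nat.card (LocQuot p (Mrep rbar) (LcOf rbar (Pfl p) p)) ≤ 1 :=
          Finite.card_le_one_iff_subsingleton.2 inferInstance
      _ ≤ Nat.card k * Nat.card (Fix p (Mrep rbar)) := Nat.mul_pos hq hposFix

end Final

end Fermat.Agent.S56.Flat.Main
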