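import Mathlib

/-!
# PROJECT T (S56), block (a3) `S56/Flat`, `Main/Irred` (helper16)

Pure finite group theory.  `G ≤ GL₂(k)` finite, `k` a finite field of odd characteristic `p`,
with a chain "normal `p`-subgroup `W`, then cyclic (generated by `τ`), then cyclic (generated by
`φ`)" — the shape of every finite quotient of a local Galois group.  If every element of `G` has
an eigenvector over `k` and `G` stabilises no line, then `p ∤ #G`.
-/

set_option autoImplicit false
set_option linter.style.haveILetI false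
set_option linter.unusedSectionVars false

namespace Fermat.Agent.S56.Flat.Main.Irred

open Matrix

variable {k : Type*} [Field k]

/-! ### two vectors in the plane -/

/-- the determinant of two vectors -/
def dt (v u : Fin 2 → k) : k := v 0 * u 1 - v 1 * u 0

theorem exists_coords {v u : Fin 2 → k} (h : dt v u ≠ 0) (x : Fin 2 → k) :
    ∃ c d : k, x = c • v + d • u := by
  refine ⟨(x 0 * u 1 - x 1 * u 0) / dt v u, (v 0 * x 1 - v 1 * x 0) / dt v u, ?_⟩
  ext i
  simp only [Pi.add_apply, Pi.smul_apply, smul_eq_mul]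
  rw [div_mul_eq_mul_div, div_mul_eq_mul_div, ← add_div, eq_div_iff h]
  unfold dt
  fin_cases i
  · simp only [Fin.zero_eta]
    ring
  · simp only [Fin.mk_one]
    ring

theorem eq_zero_of_coords {v u : Fin 2 → k} (h : dt v u ≠ 0) {c d : k}
    (hcd : c • v + d • u = 0) : c = 0 ∧ d = 0 := by
  have h0 := congrFun hcd 0
  have h1 := congrFun hcd 1
  simp only [Pi.add_apply, Pi.smul_apply, smul_eq_mul, Pi.zero_apply] at h0 h1
  unfold dt at h
  constructor
  · have : c * (v 0 * u 1 - v 1 * u 0) = 0 := by linear_combination u 1 * h0 - u 0 * h1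
    exact (mul_eq_zero.1 this).resolve_right h
  · have : d * (v 0 * u 1 - v 1 * u 0) = 0 := by linear_combination v 0 * h1 - v 1 * h0
    exact (mul_eq_zero.1 this).resolve_right h

theorem dt_ne_zero_of_not_smul {v u : Fin 2 → k} (hv : v ≠ 0) (hu : ∀ a : k, u ≠ a • v) :
    dt v u ≠ 0 := by
  intro h
  unfold dt at h
  by_cases h0 : v 0 = 0
  · have h1 : v 1 ≠ 0 := by
      intro h1
      apply hv
      ext i
      fin_cases i
      · exact h0
      · exact h1
    rw [h0, zero_mul, zero_sub, neg_eq_zero] at h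
    have hu0 : u 0 = 0 := (mul_eq_zero.1 h).resolve_left h1
    apply hu (u 1 / v 1)
    ext i
    fin_cases i
    · simp [hu0, h0]
    · simp only [Fin.mk_one, Pi.smul_apply, smul_eq_mul]
      field_simp
  · apply hu (u 0 / v 0)
    ext i
    fin_cases i
    · simp only [Fin.zero_eta, Pi.smul_apply, smul_eq_mul]
      field_simp
    · simp only [Fin.mk_one, Pi.smul_apply, smul_eq_mul]
      field_simp
      linear_combination h

/-! ### elements of `GL₂` acting on vectors -/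

theorem inv_mulVec_mulVec (g : GL (Fin 2) k) (x : Fin 2 → k) :
    ((g⁻¹ : GL (Fin 2) k) : Matrix (Fin 2) (Fin 2) k) *ᵥ ((g : Matrix (Fin 2) (Fin 2) k) *ᵥ x) =
      x := by
  rw [Matrix.mulVec_mulVec, ← Units.val_mul, inv_mul_cancel, Units.val_one, Matrix.one_mulVec]

theorem mulVec_inv_mulVec (g : GL (Fin 2) k) (x : Fin 2 → k) :
    (g : Matrix (Fin 2) (Fin 2) k) *ᵥ (((g⁻¹ : GL (Fin 2) k) : Matrix (Fin 2) (Fin 2) k) *ᵥ x) =
      x := by
  rw [Matrix.mulVec_mulVec, ← Units.val_mul, mul_inv_cancel, Units.val_one, Matrix.one_mulVec]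

theorem mulVec_ne_zero (g : GL (Fin 2) k) {x : Fin 2 → k} (hx : x ≠ 0) :
    (g : Matrix (Fin 2) (Fin 2) k) *ᵥ x ≠ 0 := by
  intro h
  apply hx
  rw [← inv_mulVec_mulVec g x, h, Matrix.mulVec_zero]

/-- an eigenvalue of an invertible matrix is non-zero -/
theorem eigenvalue_ne_zero (g : GL (Fin 2) k) {x : Fin 2 → k} (hx : x ≠ 0) {a : k}
    (h : (g : Matrix (Fin 2) (Fin 2) k) *ᵥ x = a • x) : a ≠ 0 := by
  rintro rfl
  rw [zero_smul] at h
  exact mulVec_ne_zero g hx h

theorem inv_mulVec_of_eigen (g : GL (Fin 2) k) {x : Fin 2 → k} (hx : x ≠ 0) {a : k}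
    (h : (g : Matrix (Fin 2) (Fin 2) k) *ᵥ x = a • x) :
    ((g⁻¹ : GL (Fin 2) k) : Matrix (Fin 2) (Fin 2) k) *ᵥ x = a⁻¹ • x := by
  have ha := eigenvalue_ne_zero g hx h
  have h1 := congrArg (fun y => ((g⁻¹ : GL (Fin 2) k) : Matrix (Fin 2) (Fin 2) k) *ᵥ y) h
  simp only [inv_mulVec_mulVec, Matrix.mulVec_smul] at h1
  have h2 := congrArg (fun y => a⁻¹ • y) h1
  simp only [smul_smul, inv_mul_cancel₀ ha, one_smul] at h2
  exact h2.symm

theorem pow_mulVec_of_eigen (g : GL (Fin 2) k) {x : Fin 2 → k} {a : k}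
    (h : (g : Matrix (Fin 2) (Fin 2) k) *ᵥ x = a • x) (n : ℕ) :
    ((g ^ n : GL (Fin 2) k) : Matrix (Fin 2) (Fin 2) k) *ᵥ x = a ^ n • x := by
  induction n with
  | zero => simp
  | succ n ih =>
    rw [pow_succ, Units.val_mul, ← Matrix.mulVec_mulVec, h, Matrix.mulVec_smul, ih, smul_smul,
      pow_succ, mul_comm]

/-- an element of `GL₂` fixing two independent vectors is trivial -/
theorem eq_one_of_fix {v u : Fin 2 → k} (h : dt v u ≠ 0) (g : GL (Fin 2) k)
    (hv : (g : Matrix (Fin 2) (Fin 2) k) *ᵥ v = v) (hu : (g : Matrix (Fin 2) (Fin 2) k) *ᵥ u = u) :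
    g = 1 := by
  apply Units.ext
  rw [Units.val_one]
  have hall : ∀ x, (g : Matrix (Fin 2) (Fin 2) k) *ᵥ x = x := by
    intro x
    obtain ⟨c, d, rfl⟩ := exists_coords h x
    rw [Matrix.mulVec_add, Matrix.mulVec_smul, Matrix.mulVec_smul, hv, hu]
  ext i j
  have h1 := congrFun (hall (Pi.single j 1)) i
  rw [Matrix.mulVec_single_one] at h1
  have h2 : (g : Matrix (Fin 2) (Fin 2) k) i j = (Pi.single j (1 : k) : Fin 2 → k) i := by
    rw [← h1]
    rfl
  rw [h2, Matrix.one_apply, Pi.single_apply]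

/-- the subgroup of `GL₂` stabilising the line `k y` -/
def stabLine (y : Fin 2 → k) (hy : y ≠ 0) : Subgroup (GL (Fin 2) k) where
  carrier := {g | ∃ c : k, (g : Matrix (Fin 2) (Fin 2) k) *ᵥ y = c • y}
  one_mem' := ⟨1, by simp⟩
  mul_mem' := by
    rintro g h ⟨c, hc⟩ ⟨d, hd⟩
    exact ⟨c * d, by
      rw [Units.val_mul, ← Matrix.mulVec_mulVec, hd, Matrix.mulVec_smul, hc, smul_smul, mul_comm]⟩
  inv_mem' := by
    rintro g ⟨c, hc⟩
    exact ⟨c⁻¹, inv_mulVec_of_eigen g hy hc⟩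

theorem mem_stabLine {y : Fin 2 → k} {hy : y ≠ 0} {g : GL (Fin 2) k} :
    g ∈ stabLine y hy ↔ ∃ c : k, (g : Matrix (Fin 2) (Fin 2) k) *ᵥ y = c • y := Iff.rfl

/-! ### the main theorem -/

section Main

variable [Finite k] {p : ℕ} [hp : Fact p.Prime] [CharP k p]

/-- a `p`-group of matrices in characteristic `p` fixes a non-zero vector -/
theorem exists_fixed_of_isPGroup (W : Subgroup (GL (Fin 2) k)) (hW : IsPGroup p W) :
    ∃ v : Fin 2 → k, v ≠ 0 ∧ ∀ w ∈ W, (w : Matrix (Fin 2) (Fin 2) k) *ᵥ v = v := by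
  classical
  haveI : Fintype k := Fintype.ofFinite k
  letI act : MulAction ↥W (Fin 2 → k) :=
    { smul := fun w v => ((w : GL (Fin 2) k) : Matrix (Fin 2) (Fin 2) k) *ᵥ v
      one_smul := fun v => by
        change ((1 : GL (Fin 2) k) : Matrix (Fin 2) (Fin 2) k) *ᵥ v = v
        rw [Units.val_one, Matrix.one_mulVec]
      mul_smul := fun w w' v => by
        change (((w * w' : ↥W) : GL (Fin 2) k) : Matrix (Fin 2) (Fin 2) k) *ᵥ v =
          ((w : GL (Fin 2) k) : Matrix (Fin 2) (Fin 2) k) *ᵥ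
            (((w' : GL (Fin 2) k) : Matrix (Fin 2) (Fin 2) k) *ᵥ v)
        rw [Subgroup.coe_mul, Units.val_mul, Matrix.mulVec_mulVec] }
  haveI : Fintype (MulAction.fixedPoints ↥W (Fin 2 → k)) := Fintype.ofFinite _
  have h1 := hW.card_modEq_card_fixedPoints (Fin 2 → k)
  have hcard : Nat.card (Fin 2 → k) = Nat.card k ^ 2 := by
    rw [Nat.card_fun, Nat.card_eq_fintype_card (α := Fin 2), Fintype.card_fin]
  have hpk : p ∣ Nat.card k := by
    rw [Nat.card_eq_fintype_card]
    exact (CharP.cast_eq_zero_iff k p _).1 (Nat.cast_card_eq_zero k)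
  have h2 : p ∣ Nat.card (MulAction.fixedPoints ↥W (Fin 2 → k)) := by
    have h3 : p ∣ Nat.card (Fin 2 → k) := by
      rw [hcard]
      exact Dvd.dvd.pow hpk two_ne_zero
    exact (Nat.modEq_zero_iff_dvd.1 (h1.symm.trans (Nat.modEq_zero_iff_dvd.2 h3)))
  have h4 : 1 < Nat.card (MulAction.fixedPoints ↥W (Fin 2 → k)) := by
    have hpos : 0 < Nat.card (MulAction.fixedPoints ↥W (Fin 2 → k)) :=
      Nat.card_pos_iff.2 ⟨⟨⟨0, fun w => Matrix.mulVec_zero _⟩⟩, inferInstance⟩
    exact lt_of_lt_of_le hp.out.one_lt (Nat.le_of_dvd hpos h2)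
  obtain ⟨x, y, hxy⟩ := Finite.one_lt_card_iff_nontrivial.1 h4
  have : ∃ z : MulAction.fixedPoints ↥W (Fin 2 → k), (z : Fin 2 → k) ≠ 0 := by
    by_cases hx : (x : Fin 2 → k) = 0
    · refine ⟨y, fun hy => hxy (Subtype.ext (hx.trans hy.symm))⟩
    · exact ⟨x, hx⟩
  obtain ⟨z, hz⟩ := this
  exact ⟨z, hz, fun w hw => z.2 ⟨w, hw⟩⟩

/-- `G` stabilises no line of `k²` -/
def NoLine (G : Subgroup (GL (Fin 2) k)) : Prop :=
  ¬ ∃ v : Fin 2 → k, v ≠ 0 ∧ ∀ g ∈ G, ∃ a : k, (g : Matrix (Fin 2) (Fin 2) k) *ᵥ v = a • v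

/-- every element of `G` has an eigenvector over `k` -/
def HasEigen (G : Subgroup (GL (Fin 2) k)) : Prop :=
  ∀ g ∈ G, ∃ v : Fin 2 → k, v ≠ 0 ∧ ∃ a : k, (g : Matrix (Fin 2) (Fin 2) k) *ᵥ v = a • v

/-- **Step 1.** A `p`-subgroup normalised by an irreducible `G` is trivial. -/
theorem eq_bot_of_isPGroup {G : Subgroup (GL (Fin 2) k)} (hirr : NoLine G)
    (W : Subgroup (GL (Fin 2) k)) (hWp : IsPGroup p W)
    (hWn : ∀ g ∈ G, ∀ w ∈ W, g * w * g⁻¹ ∈ W) : W = ⊥ := by
  obtain ⟨v, hv, hfix⟩ := exists_fixed_of_isPGroup W hWp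
  by_contra hW
  apply hirr
  refine ⟨v, hv, fun g hg => ?_⟩
  by_contra hgv
  push Not at hgv
  have hdt : dt v ((g : Matrix (Fin 2) (Fin 2) k) *ᵥ v) ≠ 0 := dt_ne_zero_of_not_smul hv hgv
  apply hW
  rw [Subgroup.eq_bot_iff_forall]
  intro w hw
  refine eq_one_of_fix hdt w (hfix w hw) ?_
  -- `w (g v) = g ((g⁻¹ w g) v) = g v`
  have h1 : g⁻¹ * w * g ∈ W := by
    have := hWn g⁻¹ (G.inv_mem hg) w hw
    rwa [inv_inv] at this
  have h2 := hfix _ h1
  have h3 : w * g = g * (g⁻¹ * w * g) := by group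
  rw [Matrix.mulVec_mulVec, ← Units.val_mul, h3, Units.val_mul, ← Matrix.mulVec_mulVec, h2]

/-- conjugates of an eigenvector: if `h⁻¹ τ h` is a power of `τ` and `x` is an eigenvector of `τ`,
so is `h x`. -/
theorem eigen_of_conj {τ h : GL (Fin 2) k} {m : ℕ} (hm : τ ^ m = h⁻¹ * τ * h) {x : Fin 2 → k}
    {a : k} (hx : (τ : Matrix (Fin 2) (Fin 2) k) *ᵥ x = a • x) :
    (τ : Matrix (Fin 2) (Fin 2) k) *ᵥ ((h : Matrix (Fin 2) (Fin 2) k) *ᵥ x) =
      a ^ m • ((h : Matrix (Fin 2) (Fin 2) k) *ᵥ x) := by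
  have h1 : τ * h = h * τ ^ m := by rw [hm]; group
  rw [Matrix.mulVec_mulVec, ← Units.val_mul, h1, Units.val_mul, ← Matrix.mulVec_mulVec,
    pow_mulVec_of_eigen τ hx, Matrix.mulVec_smul]

/-- **Steps 2 and 3.** -/
theorem not_dvd_card_of_cyclic_chain (hp2 : p ≠ 2) {G : Subgroup (GL (Fin 2) k)}
    (hirr : NoLine G) (heig : HasEigen G) {τ φ : GL (Fin 2) k} (hτ : τ ∈ G) (hφ : φ ∈ G)
    (hτn : ∀ g ∈ G, g * τ * g⁻¹ ∈ Subgroup.zpowers τ)
    (hgen : G ≤ Subgroup.closure {τ, φ}) : ¬ p ∣ Nat.card ↥G := by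
  intro hdvd
  obtain ⟨s, hs⟩ := exists_prime_orderOf_dvd_card' p hdvd
  have hsp : (s : GL (Fin 2) k) ^ p = 1 := by
    have := pow_orderOf_eq_one s
    rw [hs] at this
    exact_mod_cast congrArg Subtype.val this
  have hs1 : (s : GL (Fin 2) k) ≠ 1 := by
    intro h
    have : s = 1 := Subtype.ext h
    rw [this, orderOf_one] at hs
    exact hp.out.one_lt.ne hs
  -- powers instead of integer powers
  have hpow : ∀ h ∈ G, ∃ m : ℕ, τ ^ m = h⁻¹ * τ * h := by
    intro h hh
    have h1 := hτn h⁻¹ (G.inv_mem hh)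
    rw [inv_inv] at h1
    rw [← (isOfFinOrder_of_finite τ).mem_powers_iff_mem_zpowers] at h1
    exact (Submonoid.mem_powers_iff _ _).1 h1
  obtain ⟨v, hv, a, hav⟩ := heig τ hτ
  -- some `g ∈ G` moves the line `k v`
  have hmove : ∃ g ∈ G, ∀ b : k, (g : Matrix (Fin 2) (Fin 2) k) *ᵥ v ≠ b • v := by
    by_contra hcon
    push Not at hcon
    exact hirr ⟨v, hv, hcon⟩
  obtain ⟨g, hg, hgv⟩ := hmove
  obtain ⟨m, hm⟩ := hpow g hg
  have hdt : dt v ((g : Matrix (Fin 2) (Fin 2) k) *ᵥ v) ≠ 0 := dt_ne_zero_of_not_smul hv hgv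
  set u := (g : Matrix (Fin 2) (Fin 2) k) *ᵥ v with hu
  have hbu : (τ : Matrix (Fin 2) (Fin 2) k) *ᵥ u = a ^ m • u := eigen_of_conj hm hav
  have hu0 : u ≠ 0 := mulVec_ne_zero g hv
  by_cases hab : a = a ^ m
  · -- `τ` is scalar
    have hτall : ∀ x, (τ : Matrix (Fin 2) (Fin 2) k) *ᵥ x = a • x := by
      intro x
      obtain ⟨c, d, rfl⟩ := exists_coords hdt x
      rw [Matrix.mulVec_add, Matrix.mulVec_smul, Matrix.mulVec_smul, hav, hbu, ← hab, smul_add,
        smul_comm a c, smul_comm a d]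
    obtain ⟨y, hy, b, hby⟩ := heig φ hφ
    have hle : G ≤ stabLine y hy := by
      refine hgen.trans ((Subgroup.closure_le _).2 ?_)
      rintro x (rfl | rfl)
      · exact ⟨a, hτall y⟩
      · exact ⟨b, hby⟩
    exact hirr ⟨y, hy, fun h hh => hle hh⟩
  · -- two distinct eigenvalues
    have key : ∀ x : Fin 2 → k, ∀ e : k, (τ : Matrix (Fin 2) (Fin 2) k) *ᵥ x = e • x →
        (∃ c : k, x = c • v) ∨ (∃ d : k, x = d • u) := by
      intro x e hx
      obtain ⟨c, d, rfl⟩ := exists_coords hdt x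
      rw [Matrix.mulVec_add, Matrix.mulVec_smul, Matrix.mulVec_smul, hav, hbu] at hx
      have h0 : (c * (a - e)) • v + (d * (a ^ m - e)) • u = 0 := by
        have : c • a • v + d • a ^ m • u - e • (c • v + d • u) = 0 := sub_eq_zero.2 hx
        rw [← this]
        module
      obtain ⟨h1, h2⟩ := eq_zero_of_coords hdt h0
      by_cases hc : c = 0
      · right
        exact ⟨d, by rw [hc, zero_smul, zero_add]⟩
      · left
        have hae : a = e := by
          have := (mul_eq_zero.1 h1).resolve_left hc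
          exact sub_eq_zero.1 this
        have hd : d = 0 := by
          rcases mul_eq_zero.1 h2 with h | h
          · exact h
          · exact absurd (hae.trans (sub_eq_zero.1 h).symm) hab
        exact ⟨c, by rw [hd, zero_smul, add_zero]⟩
    obtain ⟨ms, hms⟩ := hpow s s.2
    have hsv := key _ _ (eigen_of_conj hms hav)
    have hsu := key _ _ (eigen_of_conj hms hbu)
    -- odd prime
    obtain ⟨n, hn⟩ : ∃ n, p = 2 * n + 1 := by
      have := hp.out.eq_one_or_self_of_dvd 2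
      rcases Nat.even_or_odd p with he | ho
      · exact absurd ((hp.out.eq_one_or_self_of_dvd 2 he.two_dvd).resolve_left (by norm_num)).symm hp2
      · exact ho
    rcases hsv with ⟨c, hc⟩ | ⟨c, hc⟩
    · rcases hsu with ⟨d, hd⟩ | ⟨d, hd⟩
      · -- `s v = c v`, `s u = d v`: impossible
        have h0 : ((s : GL (Fin 2) k) : Matrix (Fin 2) (Fin 2) k) *ᵥ (d • v - c • u) = 0 := by
          rw [Matrix.mulVec_sub, Matrix.mulVec_smul, Matrix.mulVec_smul, hc, hd, smul_smul,
            smul_smul, mul_comm, sub_self]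
        have h1 : d • v - c • u = 0 := by
          by_contra hne
          exact mulVec_ne_zero _ hne h0
        have h2 : d • v + (-c) • u = 0 := by rw [neg_smul, ← sub_eq_add_neg]; exact h1
        obtain ⟨hd0, hc0⟩ := eq_zero_of_coords hdt h2
        rw [neg_eq_zero] at hc0
        rw [hc0, zero_smul] at hc
        exact mulVec_ne_zero _ hv hc
      · -- `s v = c v`, `s u = d u`: then `s = 1`
        have hone : ∀ (x : Fin 2 → k) (e : k), x ≠ 0 →
            ((s : GL (Fin 2) k) : Matrix (Fin 2) (Fin 2) k) *ᵥ x = e • x → e = 1 := by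
          intro x e hx0 hx
          have h1 := pow_mulVec_of_eigen _ hx p
          rw [hsp, Units.val_one, Matrix.one_mulVec] at h1
          have h2 : (e ^ p - 1) • x = 0 := by rw [sub_smul, one_smul, ← h1, sub_self]
          have h3 : e ^ p - 1 = 0 := (smul_eq_zero.1 h2).resolve_right hx0
          have h4 : (e - 1) ^ p = 0 := by rw [sub_pow_char, one_pow, h3]
          exact sub_eq_zero.1 (pow_eq_zero_iff hp.out.ne_zero |>.1 h4)
        have hc1 := hone v c hv hc
        have hd1 := hone u d hu0 hd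
        rw [hc1, one_smul] at hc
        rw [hd1, one_smul] at hd
        exact hs1 (eq_one_of_fix hdt _ hc hd)
    · rcases hsu with ⟨d, hd⟩ | ⟨d, hd⟩
      · -- `s v = c u`, `s u = d v`: `s²` is scalar, `p` odd
        have h2 : (((s : GL (Fin 2) k) ^ 2 : GL (Fin 2) k) : Matrix (Fin 2) (Fin 2) k) *ᵥ v =
            (c * d) • v := by
          rw [pow_two, Units.val_mul, ← Matrix.mulVec_mulVec, hc, Matrix.mulVec_smul, hd,
            smul_smul]
        have h3 := pow_mulVec_of_eigen _ h2 n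
        have h4 : ((s : GL (Fin 2) k) ^ p : GL (Fin 2) k) = s * (s ^ 2) ^ n := by
          rw [hn, pow_succ', pow_mul]
        have h5 : (((s : GL (Fin 2) k) ^ p : GL (Fin 2) k) : Matrix (Fin 2) (Fin 2) k) *ᵥ v =
            ((c * d) ^ n * c) • u := by
          rw [h4, Units.val_mul, ← Matrix.mulVec_mulVec, h3, Matrix.mulVec_smul, hc, smul_smul]
        rw [hsp, Units.val_one, Matrix.one_mulVec] at h5
        have h6 : (1 : k) • v + (-((c * d) ^ n * c)) • u = 0 := by
          rw [one_smul, neg_smul, ← sub_eq_add_neg, sub_eq_zero]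
          exact h5
        exact one_ne_zero (eq_zero_of_coords hdt h6).1
      · -- `s v = c u`, `s u = d u`: impossible
        have h0 : ((s : GL (Fin 2) k) : Matrix (Fin 2) (Fin 2) k) *ᵥ (d • v - c • u) = 0 := by
          rw [Matrix.mulVec_sub, Matrix.mulVec_smul, Matrix.mulVec_smul, hc, hd, smul_smul,
            smul_smul, mul_comm, sub_self]
        have h1 : d • v - c • u = 0 := by
          by_contra hne
          exact mulVec_ne_zero _ hne h0
        have h2 : d • v + (-c) • u = 0 := by rw [neg_smul, ← sub_eq_add_neg]; exact h1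
        obtain ⟨hd0, hc0⟩ := eq_zero_of_coords hdt h2
        rw [neg_eq_zero] at hc0
        rw [hc0, zero_smul] at hc
        exact mulVec_ne_zero _ hv hc

/-- **The chain theorem.**  `G ≤ GL₂(k)` with a normal `p`-subgroup `W`, then a cyclic step `τ`,
then a cyclic step `φ`; every element has an eigenvector over `k`; no stable line.  Then
`p ∤ #G`. -/
theorem not_dvd_card_of_chain (hp2 : p ≠ 2) {G : Subgroup (GL (Fin 2) k)}
    (hirr : NoLine G) (heig : HasEigen G) (W : Subgroup (GL (Fin 2) k)) {τ φ : GL (Fin 2) k}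
    (hWp : IsPGroup p W) (hτ : τ ∈ G) (hφ : φ ∈ G)
    (hWn : ∀ g ∈ G, ∀ w ∈ W, g * w * g⁻¹ ∈ W)
    (hτn : ∀ g ∈ G, g * τ * g⁻¹ ∈ W ⊔ Subgroup.zpowers τ)
    (hgen : G ≤ Subgroup.closure ((W : Set (GL (Fin 2) k)) ∪ {τ, φ})) : ¬ p ∣ Nat.card ↥G := by
  have hW : W = ⊥ := eq_bot_of_isPGroup hirr W hWp hWn
  subst hW
  refine not_dvd_card_of_cyclic_chain hp2 hirr heig hτ hφ (fun g hg => ?_) (hgen.trans ?_)
  · have := hτn g hg
    rwa [bot_sup_eq] at this
  · refine (Subgroup.closure_le _).2 ?_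
    rintro x (hx | hx)
    · rw [SetLike.mem_coe, Subgroup.mem_bot] at hx
      rw [hx]
      exact Subgroup.one_mem _
    · exact Subgroup.subset_closure hx

end Main

end Fermat.Agent.S56.Flat.Main.Irred
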