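import Fermat.Agent.S56.Flat.Dev.Bound
import Fermat.Agent.S56.Flat.Dict.OfPrelude
import Fermat.Agent.S56.Coh.CocDefs
import Fermat.Agent.S56.Coh.Lemmas

/-!
# PROJECT T (S56), block (a3) `S56/Flat`, `Main/Transport` (helper16)

From the global model (`Coh/Defs`, `Coh/CocDefs`: cocycles on `Dq p ≤ GQ` with values in
`Mrep rbar`, the local condition `LcOf rbar (Pfl p) p`) to the local model of `Dev`
(`LocGal p`, matrix valued functions), up to conjugation by a constant `P : GL₂(k)`.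
-/

set_option autoImplicit false
set_option linter.unusedSectionVars false
set_option linter.style.haveILetI false

noncomputable section

namespace Fermat.Agent.S56.Flat.Main

open Fermat.Agent.S56.Flat.Dict Fermat.Agent.S56.Flat.Dev Fermat.Agent.CFT.LocalBridge
open Fermat.Agent.CFT.LC Fermat.Agent.CFT.Bridge Fermat.Agent.S56.Coh
open Fermat.Agent.S56.Coh.CocDefs
open Fermat.Agent.S53.Dictionary hiding GQ
open Fermat.Agent.S53.TangentBound
open Matrix

/-- `Lc / (B1 ∩ Lc)` for a subspace `Lc` of functions on `D_q`, stated for a GENERIC coefficient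
module `A` so that the quotient instances are elaborated once and for all (for `A = Mrep rbar` the
surface syntax `↥Lc ⧸ (B1 (Dq q) A).comap Lc.subtype` does not elaborate; this abbreviation unfolds
to exactly that term). -/
abbrev LocQuot {k : Type} [CommRing k] (q : ℕ) [Fact q.Prime] (A : Rep.{0} k GQ)
    (Lc : Submodule k (↥(Dq q) → resRep (Dq q) A)) : Type :=
  ↥Lc ⧸ (B1 (Dq q) A).comap Lc.subtype

variable {p : ℕ} [Fact p.Prime] {k : Type} [Field k]

/-! ### conjugation of the local model -/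

/-- conjugation of a local representation by a constant matrix: `τ ↦ P⁻¹ (rb τ) P` -/
def conjRep (rb : LocGal p →* GL (Fin 2) k) (P : GL (Fin 2) k) : LocGal p →* GL (Fin 2) k :=
  (MulAut.conj P⁻¹).toMonoidHom.comp rb

theorem conjRep_apply (rb : LocGal p →* GL (Fin 2) k) (P : GL (Fin 2) k) (τ : LocGal p) :
    conjRep rb P τ = P⁻¹ * rb τ * P := by
  simp [conjRep]

theorem conjRep_coe (rb : LocGal p →* GL (Fin 2) k) (P : GL (Fin 2) k) (τ : LocGal p) :
    (conjRep rb P τ : Matrix (Fin 2) (Fin 2) k) =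
      ((P⁻¹ : GL (Fin 2) k) : Matrix (Fin 2) (Fin 2) k) * (rb τ : Matrix (Fin 2) (Fin 2) k) *
        (P : Matrix (Fin 2) (Fin 2) k) := by
  rw [conjRep_apply, Units.val_mul, Units.val_mul]

/-- conjugation of a matrix valued function -/
def conjFun (P : GL (Fin 2) k) (c : LocGal p → Matrix (Fin 2) (Fin 2) k) :
    LocGal p → Matrix (Fin 2) (Fin 2) k :=
  fun τ => ((P⁻¹ : GL (Fin 2) k) : Matrix (Fin 2) (Fin 2) k) * c τ * (P : Matrix (Fin 2) (Fin 2) k)

theorem GL_inv_mul_cancel_left (P : GL (Fin 2) k) (X : Matrix (Fin 2) (Fin 2) k) :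
    (P : Matrix (Fin 2) (Fin 2) k) * (((P⁻¹ : GL (Fin 2) k) : Matrix (Fin 2) (Fin 2) k) * X) = X := by
  rw [← Matrix.mul_assoc, ← Units.val_mul, mul_inv_cancel, Units.val_one, Matrix.one_mul]

theorem GL_inv_mulVec_cancel (P : GL (Fin 2) k) (v : Fin 2 → k) :
    (P : Matrix (Fin 2) (Fin 2) k) *ᵥ (((P⁻¹ : GL (Fin 2) k) : Matrix (Fin 2) (Fin 2) k) *ᵥ v) = v := by
  rw [Matrix.mulVec_mulVec, ← Units.val_mul, mul_inv_cancel, Units.val_one, Matrix.one_mulVec]

theorem GL_mulVec_inv_cancel (P : GL (Fin 2) k) (v : Fin 2 → k) :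
    ((P⁻¹ : GL (Fin 2) k) : Matrix (Fin 2) (Fin 2) k) *ᵥ ((P : Matrix (Fin 2) (Fin 2) k) *ᵥ v) = v := by
  rw [Matrix.mulVec_mulVec, ← Units.val_mul, inv_mul_cancel, Units.val_one, Matrix.one_mulVec]

/-- the additive automorphism `v ↦ P v` of `k²` -/
def mulVecEquiv (P : GL (Fin 2) k) : (Fin 2 → k) ≃+ (Fin 2 → k) where
  toFun v := (P : Matrix (Fin 2) (Fin 2) k) *ᵥ v
  invFun v := ((P⁻¹ : GL (Fin 2) k) : Matrix (Fin 2) (Fin 2) k) *ᵥ v
  left_inv v := GL_mulVec_inv_cancel P v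
  right_inv v := GL_inv_mulVec_cancel P v
  map_add' v w := Matrix.mulVec_add _ v w

/-- local flatness is invariant under conjugation: `V̄` -/
theorem isLocFlat_actbar_conj {rb : LocGal p →* GL (Fin 2) k} (P : GL (Fin 2) k)
    (h : IsLocFlat p (actbar rb)) : IsLocFlat p (actbar (conjRep rb P)) := by
  refine h.of_equiv (mulVecEquiv P) fun τ v => ?_
  change (P : Matrix (Fin 2) (Fin 2) k) *ᵥ ((conjRep rb P τ : Matrix (Fin 2) (Fin 2) k) *ᵥ v) =
    (rb τ : Matrix (Fin 2) (Fin 2) k) *ᵥ ((P : Matrix (Fin 2) (Fin 2) k) *ᵥ v)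
  rw [conjRep_coe, Matrix.mulVec_mulVec, Matrix.mulVec_mulVec, Matrix.mul_assoc,
    GL_inv_mul_cancel_left]

/-- local flatness is invariant under conjugation: `V_c` -/
theorem isLocFlat_actV_conj {rb : LocGal p →* GL (Fin 2) k}
    {c : LocGal p → Matrix (Fin 2) (Fin 2) k} (P : GL (Fin 2) k)
    (h : IsLocFlat p (actV rb c)) : IsLocFlat p (actV (conjRep rb P) (conjFun P c)) := by
  refine h.of_equiv ((mulVecEquiv P).prodCongr (mulVecEquiv P)) fun τ z => ?_
  change ((P : Matrix (Fin 2) (Fin 2) k) *ᵥ (actV (conjRep rb P) (conjFun P c) τ z).1,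
    (P : Matrix (Fin 2) (Fin 2) k) *ᵥ (actV (conjRep rb P) (conjFun P c) τ z).2) =
    actV rb c τ ((P : Matrix (Fin 2) (Fin 2) k) *ᵥ z.1, (P : Matrix (Fin 2) (Fin 2) k) *ᵥ z.2)
  simp only [actV_apply, conjRep_coe, conjFun, Matrix.mulVec_add, Matrix.mulVec_mulVec]
  refine Prod.ext ?_ ?_
  · simp only [Matrix.mul_assoc, GL_inv_mul_cancel_left]
  · simp only [Matrix.mul_assoc, GL_inv_mul_cancel_left]

/-- `V̄` is a submodule of `V_c` -/
theorem isLocFlat_actbar_of_actV {rb : LocGal p →* GL (Fin 2) k}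
    {c : LocGal p → Matrix (Fin 2) (Fin 2) k} (h : IsLocFlat p (actV rb c)) :
    IsLocFlat p (actbar rb) := by
  let ι : (Fin 2 → k) →+ (Fin 2 → k) × (Fin 2 → k) :=
    { toFun := fun w => (0, w)
      map_zero' := rfl
      map_add' := fun v w => by simp }
  refine h.sub ι (fun v w hvw => (Prod.ext_iff.1 hvw).2) fun τ w => ?_
  change (0, actbar rb τ w) = actV rb c τ (0, w)
  simp [actV_apply, actbar]

/-! ### the dictionary for a flat matrix lift -/

variable [Finite k] (rbar : GQ →* GL (Fin 2) k)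

/-- the restriction of `rbar` to the local Galois group -/
def locRep : LocGal p →* GL (Fin 2) k := rbar.comp (localGaloisToGlobal p)

theorem locRep_apply (τ : LocGal p) : locRep (p := p) rbar τ = rbar (localGaloisToGlobal p τ) := rfl

/-- the restriction of the cocycle of a matrix lift to the local Galois group -/
def locCoc {rbar : GQ →* GL (Fin 2) k} (L : MatLift rbar) :
    LocGal p → Matrix (Fin 2) (Fin 2) k :=
  fun τ => cocMat L (localGaloisToGlobal p τ)

/-- `(v, w) ↦ v + ε w` -/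
def dualEquiv : (Fin 2 → k) × (Fin 2 → k) ≃+ (Fin 2 → DualNumber k) where
  toFun z := fun i => TrivSqZeroExt.inl (z.1 i) + TrivSqZeroExt.inr (z.2 i)
  invFun x := (fun i => TrivSqZeroExt.fst (x i), fun i => TrivSqZeroExt.snd (x i))
  left_inv z := by
    refine Prod.ext ?_ ?_ <;> (funext i; simp)
  right_inv x := by
    funext i
    exact TrivSqZeroExt.ext (by simp) (by simp)
  map_add' z w := by
    funext i
    exact TrivSqZeroExt.ext (by simp) (by simp)

theorem finite_dualNumber_quot_bot : Finite (DualNumber k ⧸ (⊥ : Ideal (DualNumber k))) := by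
  haveI : Finite (DualNumber k) := Finite.of_equiv (k × k) (Equiv.refl _)
  exact Finite.of_surjective _ (Ideal.Quotient.mk_surjective (I := (⊥ : Ideal (DualNumber k))))

variable {rbar}

/-- **Dictionary.**  The cocycle of a flat matrix lift has a locally flat `V_c`. -/
theorem isLocFlat_actV_of_isFlatAt (L : MatLift rbar) (hfl : (ofMat L.r L.cont).IsFlatAt p) :
    IsLocFlat p (actV (locRep (p := p) rbar) (locCoc L)) := by
  have h0 := isLocFlat_of_isFlatAt p (ofMat L.r L.cont) hfl ⊥ finite_dualNumber_quot_bot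
  have hbot : ((⊥ : Ideal (DualNumber k)) • (⊤ : Submodule (DualNumber k) (ofMat L.r L.cont).V)) =
      ⊥ := Submodule.bot_smul _
  let e1 : (Fin 2 → k) × (Fin 2 → k) ≃+ (ofMat L.r L.cont).V := dualEquiv
  let e2 : (ofMat L.r L.cont).V ≃+
      ((ofMat L.r L.cont).V ⧸
        ((⊥ : Ideal (DualNumber k)) • (⊤ : Submodule (DualNumber k) (ofMat L.r L.cont).V))) :=
    (Submodule.quotEquivOfEqBot _ hbot).symm.toAddEquiv
  have main : ∀ (τ : LocGal p) (z : (Fin 2 → k) × (Fin 2 → k)),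
      e1 (actV (locRep rbar) (locCoc L) τ z) =
        (ofMat L.r L.cont).ρ (localGaloisToGlobal p τ) (e1 z) := by
    intro τ z
    refine Eq.trans ?_ (ofMat_ρ_apply L.r L.cont (localGaloisToGlobal p τ) (dualEquiv z)).symm
    set σ := localGaloisToGlobal p τ with hσ
    have h1 : mfst (L.r σ) = (rbar σ : Matrix (Fin 2) (Fin 2) k) := L.fst_eq σ
    have h2 : msnd (L.r σ) = cocMat L σ * (rbar σ : Matrix (Fin 2) (Fin 2) k) := msnd_eq L σ
    funext i
    have hf : ∀ j, TrivSqZeroExt.fst (L.r σ i j) = (rbar σ : Matrix (Fin 2) (Fin 2) k) i j :=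
      fun j => by rw [← h1, mfst_apply]
    have hs : ∀ j, TrivSqZeroExt.snd (L.r σ i j) =
        (cocMat L σ * (rbar σ : Matrix (Fin 2) (Fin 2) k)) i j :=
      fun j => by rw [← h2, msnd_apply]
    have h3 : (cocMat L σ *ᵥ ((rbar σ : Matrix (Fin 2) (Fin 2) k) *ᵥ z.1)) i =
        ((cocMat L σ * (rbar σ : Matrix (Fin 2) (Fin 2) k)) *ᵥ z.1) i := by
      rw [Matrix.mulVec_mulVec]
    change TrivSqZeroExt.inl ((actV (locRep rbar) (locCoc L) τ z).1 i) +
        TrivSqZeroExt.inr ((actV (locRep rbar) (locCoc L) τ z).2 i) =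
      ((L.r σ).mulVec fun j => TrivSqZeroExt.inl (z.1 j) + TrivSqZeroExt.inr (z.2 j)) i
    apply TrivSqZeroExt.ext
    · simp only [actV_apply, locRep_apply, TrivSqZeroExt.fst_add, TrivSqZeroExt.fst_inl,
        TrivSqZeroExt.fst_inr, add_zero, Matrix.mulVec, dotProduct, Fin.sum_univ_two,
        TrivSqZeroExt.fst_mul, hf, ← hσ]
    · simp only [actV_apply, locRep_apply, locCoc, TrivSqZeroExt.snd_add, TrivSqZeroExt.snd_inl,
        TrivSqZeroExt.snd_inr, zero_add, Pi.add_apply, ← hσ, h3]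
      simp only [Matrix.mulVec, dotProduct, Fin.sum_univ_two, TrivSqZeroExt.snd_add,
        TrivSqZeroExt.snd_mul, TrivSqZeroExt.fst_add, TrivSqZeroExt.fst_inl,
        TrivSqZeroExt.fst_inr, TrivSqZeroExt.snd_inl, TrivSqZeroExt.snd_inr, hf, hs, smul_eq_mul,
        MulOpposite.smul_eq_mul_unop, MulOpposite.unop_op, add_zero, zero_add]
      ring
  refine h0.of_equiv (e1.trans e2) fun τ z => ?_
  exact congrArg (fun x : (ofMat L.r L.cont).V => (Submodule.Quotient.mk x :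
    (ofMat L.r L.cont).V ⧸ ((⊥ : Ideal (DualNumber k)) •
      (⊤ : Submodule (DualNumber k) (ofMat L.r L.cont).V)))) (main τ z)

/-! ### the transport map -/

section Transport

variable (rbar)

theorem GL_mul_inv (P : GL (Fin 2) k) :
    (P : Matrix (Fin 2) (Fin 2) k) * ((P⁻¹ : GL (Fin 2) k) : Matrix (Fin 2) (Fin 2) k) = 1 := by
  rw [← Units.val_mul, mul_inv_cancel, Units.val_one]

theorem GL_inv_mul (P : GL (Fin 2) k) :
    ((P⁻¹ : GL (Fin 2) k) : Matrix (Fin 2) (Fin 2) k) * (P : Matrix (Fin 2) (Fin 2) k) = 1 := by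
  rw [← Units.val_mul, inv_mul_cancel, Units.val_one]

theorem GL_mul_inv_cancel_left (P : GL (Fin 2) k) (X : Matrix (Fin 2) (Fin 2) k) :
    ((P⁻¹ : GL (Fin 2) k) : Matrix (Fin 2) (Fin 2) k) * ((P : Matrix (Fin 2) (Fin 2) k) * X) = X := by
  rw [← Matrix.mul_assoc, GL_inv_mul, Matrix.one_mul]

/-- the image of `τ` in the decomposition group -/
def locD (τ : LocGal p) : ↥(Dq p) :=
  ⟨localGaloisToGlobal p τ, by
    unfold Dq
    exact localGaloisToGlobal_mem_decompositionSubgroup p τ⟩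

@[simp] theorem locD_coe (τ : LocGal p) : ((locD τ : ↥(Dq p)) : GQ) = localGaloisToGlobal p τ := rfl

theorem exists_locD_eq (g : ↥(Dq p)) : ∃ τ : LocGal p, locD τ = g := by
  have hg : (g : GQ) ∈ (localGaloisToGlobal p).range := by
    rw [range_localGaloisToGlobal]
    exact g.2
  obtain ⟨τ, hτ⟩ := hg
  exact ⟨τ, Subtype.ext hτ⟩

theorem locD_mul (τ τ' : LocGal p) : locD (τ * τ') = locD τ * locD τ' :=
  Subtype.ext (map_mul _ _ _)

/-- **The transport map**: `c ↦ (τ ↦ P⁻¹ c(τ) P)`. -/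
def Phi (P : GL (Fin 2) k) :
    (↥(Dq p) → resRep (Dq p) (Mrep rbar)) →ₗ[k] (LocGal p → Matrix (Fin 2) (Fin 2) k) where
  toFun c := fun τ => ((P⁻¹ : GL (Fin 2) k) : Matrix (Fin 2) (Fin 2) k) *
    ((c (locD τ) : sl2 k) : Matrix (Fin 2) (Fin 2) k) * (P : Matrix (Fin 2) (Fin 2) k)
  map_add' c c' := by
    funext τ
    change _ * (((c (locD τ) + c' (locD τ) : sl2 k)) : Matrix (Fin 2) (Fin 2) k) * _ = _
    rw [Submodule.coe_add, Matrix.mul_add, Matrix.add_mul]
    rfl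
  map_smul' a c := by
    funext τ
    change _ * (((a • c (locD τ) : sl2 k)) : Matrix (Fin 2) (Fin 2) k) * _ = _
    rw [Submodule.coe_smul, Matrix.mul_smul, Matrix.smul_mul]
    rfl

theorem Phi_apply (P : GL (Fin 2) k) (c : ↥(Dq p) → resRep (Dq p) (Mrep rbar)) (τ : LocGal p) :
    Phi rbar P c τ = ((P⁻¹ : GL (Fin 2) k) : Matrix (Fin 2) (Fin 2) k) *
      ((c (locD τ) : sl2 k) : Matrix (Fin 2) (Fin 2) k) * (P : Matrix (Fin 2) (Fin 2) k) := rfl

/-- the conjugated local representation -/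
abbrev rbP (P : GL (Fin 2) k) : LocGal p →* GL (Fin 2) k := conjRep (locRep (p := p) rbar) P

theorem rbP_coe (P : GL (Fin 2) k) (τ : LocGal p) :
    (rbP rbar P τ : Matrix (Fin 2) (Fin 2) k) =
      ((P⁻¹ : GL (Fin 2) k) : Matrix (Fin 2) (Fin 2) k) *
        (rbar (localGaloisToGlobal p τ) : Matrix (Fin 2) (Fin 2) k) *
        (P : Matrix (Fin 2) (Fin 2) k) := conjRep_coe _ P τ

theorem rbP_inv_coe (P : GL (Fin 2) k) (τ : LocGal p) :
    (((rbP rbar P τ)⁻¹ : GL (Fin 2) k) : Matrix (Fin 2) (Fin 2) k) =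
      ((P⁻¹ : GL (Fin 2) k) : Matrix (Fin 2) (Fin 2) k) *
        (((rbar (localGaloisToGlobal p τ))⁻¹ : GL (Fin 2) k) : Matrix (Fin 2) (Fin 2) k) *
        (P : Matrix (Fin 2) (Fin 2) k) := by
  have : (rbP rbar P τ)⁻¹ = P⁻¹ * (rbar (localGaloisToGlobal p τ))⁻¹ * P := by
    rw [rbP, conjRep_apply, locRep_apply]
    group
  rw [this, Units.val_mul, Units.val_mul]

/-- conjugation formula: `rbP τ (P⁻¹ X P) (rbP τ)⁻¹ = P⁻¹ (rbar σ X rbar σ⁻¹) P` -/
theorem rbP_conj (P : GL (Fin 2) k) (τ : LocGal p) (X : Matrix (Fin 2) (Fin 2) k) :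
    (rbP rbar P τ : Matrix (Fin 2) (Fin 2) k) *
        (((P⁻¹ : GL (Fin 2) k) : Matrix (Fin 2) (Fin 2) k) * X * (P : Matrix (Fin 2) (Fin 2) k)) *
        (((rbP rbar P τ)⁻¹ : GL (Fin 2) k) : Matrix (Fin 2) (Fin 2) k) =
      ((P⁻¹ : GL (Fin 2) k) : Matrix (Fin 2) (Fin 2) k) *
        ((rbar (localGaloisToGlobal p τ) : Matrix (Fin 2) (Fin 2) k) * X *
          (((rbar (localGaloisToGlobal p τ))⁻¹ : GL (Fin 2) k) : Matrix (Fin 2) (Fin 2) k)) *
        (P : Matrix (Fin 2) (Fin 2) k) := by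
  rw [rbP_coe, rbP_inv_coe]
  simp only [Matrix.mul_assoc, GL_inv_mul_cancel_left]

/-- (T1) cocycles go to algebraic cocycles -/
theorem Phi_mem_Zalg (P : GL (Fin 2) k) {c : ↥(Dq p) → resRep (Dq p) (Mrep rbar)}
    (hc : c ∈ Z1 (Dq p) (Mrep rbar)) : Phi rbar P c ∈ Zalg (rbP rbar P) := by
  rw [mem_Z1_iff] at hc
  refine ⟨fun τ τ' => ?_, fun τ => ?_⟩
  · rw [Phi_apply, Phi_apply, Phi_apply, rbP_conj, locD_mul, hc.1]
    change _ * ((((Mrep rbar).ρ (localGaloisToGlobal p τ) (c (locD τ')) + c (locD τ) : sl2 k)) :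
      Matrix (Fin 2) (Fin 2) k) * _ = _
    rw [Submodule.coe_add, Mrep_ρ_coe, Matrix.mul_add, Matrix.add_mul]
  · rw [Phi_apply, Matrix.trace_mul_comm, ← Matrix.mul_assoc, GL_mul_inv, Matrix.one_mul]
    exact mem_sl2.1 (c (locD τ) : sl2 k).2

/-- (T2) the cocycle of a matrix lift -/
theorem Phi_resFun_cocOf (P : GL (Fin 2) k) (L : MatLift rbar) :
    Phi rbar P (resFun (Dq p) (cocOf L)) = conjFun P (locCoc L) := rfl

/-- (T4) coboundaries go to algebraic coboundaries -/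
theorem Phi_mem_Balg (P : GL (Fin 2) k) {c : ↥(Dq p) → resRep (Dq p) (Mrep rbar)}
    (hc : c ∈ B1 (Dq p) (Mrep rbar)) : Phi rbar P c ∈ Balg (rbP rbar P) := by
  obtain ⟨a, -, rfl⟩ := (mem_B₁_iff c).1 hc
  refine ⟨((P⁻¹ : GL (Fin 2) k) : Matrix (Fin 2) (Fin 2) k) * (a : sl2 k).1 *
    (P : Matrix (Fin 2) (Fin 2) k), ?_, ?_⟩
  · rw [SetLike.mem_coe, mem_tz, Matrix.trace_mul_comm, ← Matrix.mul_assoc, GL_mul_inv,
      Matrix.one_mul]
    exact mem_sl2.1 (a : sl2 k).2
  · funext τ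
    rw [dcobL_apply, dcob, rbP_conj, Phi_apply]
    have h1 : (((groupCohomology.d₀₁ (resRep (Dq p) (Mrep rbar))).hom a (locD τ) : sl2 k) :
        Matrix (Fin 2) (Fin 2) k) =
        (rbar (localGaloisToGlobal p τ) : Matrix (Fin 2) (Fin 2) k) * (a : sl2 k).1 *
          (((rbar (localGaloisToGlobal p τ))⁻¹ : GL (Fin 2) k) : Matrix (Fin 2) (Fin 2) k) -
        (a : sl2 k).1 := by
      rw [groupCohomology.d₀₁_hom_apply]
      rfl
    rw [h1, Matrix.mul_sub, Matrix.sub_mul]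

/-- (T3) a cochain whose transport is an algebraic coboundary is a coboundary, provided `rbar` is
trivial on some level. -/
theorem mem_B1_of_Phi_mem_Balg (P : GL (Fin 2) k)
    (hcont : ∃ U ∈ levelsAll.sets, ∀ s ∈ U, rbar s = 1)
    {c : ↥(Dq p) → resRep (Dq p) (Mrep rbar)} (hc : Phi rbar P c ∈ Balg (rbP rbar P)) :
    c ∈ B1 (Dq p) (Mrep rbar) := by
  obtain ⟨n, hn, hcn⟩ := hc
  have hn0 : n.trace = 0 := mem_tz.1 hn
  let m : sl2 k := ⟨(P : Matrix (Fin 2) (Fin 2) k) * n *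
    ((P⁻¹ : GL (Fin 2) k) : Matrix (Fin 2) (Fin 2) k), by
      rw [mem_sl2, Matrix.trace_mul_comm, ← Matrix.mul_assoc, GL_inv_mul, Matrix.one_mul, hn0]⟩
  have hnm : n = ((P⁻¹ : GL (Fin 2) k) : Matrix (Fin 2) (Fin 2) k) * m.1 *
      (P : Matrix (Fin 2) (Fin 2) k) := by
    change n = _ * (_ * n * _) * _
    simp only [Matrix.mul_assoc, GL_mul_inv_cancel_left, GL_inv_mul, Matrix.mul_one]
  refine (mem_B₁_iff c).2 ⟨m, ?_, ?_⟩
  · obtain ⟨U, hU, hUr⟩ := hcont
    refine ⟨U.comap (Dq p).subtype, Levels.mem_comap_sets hU, fun s hs => ?_⟩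
    have h1 : rbar (s : GQ) = 1 := hUr _ hs
    apply Subtype.ext
    change (((Mrep rbar).ρ (s : GQ) m : sl2 k) : Matrix (Fin 2) (Fin 2) k) = m.1
    rw [Mrep_ρ_coe, h1, inv_one, Units.val_one, Matrix.one_mul, Matrix.mul_one]
  · funext g
    obtain ⟨τ, rfl⟩ := exists_locD_eq g
    apply Subtype.ext
    have h2 := congrFun hcn τ
    rw [dcobL_apply, dcob, hnm, rbP_conj, Phi_apply] at h2
    -- conjugate back
    have h3 := congrArg (fun X => (P : Matrix (Fin 2) (Fin 2) k) * X *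
      ((P⁻¹ : GL (Fin 2) k) : Matrix (Fin 2) (Fin 2) k)) h2
    simp only [Matrix.mul_sub, Matrix.sub_mul, Matrix.mul_assoc, GL_inv_mul_cancel_left,
      GL_mul_inv, Matrix.mul_one] at h3
    rw [groupCohomology.d₀₁_hom_apply]
    change (((Mrep rbar).ρ (localGaloisToGlobal p τ) m - m : sl2 k) : Matrix (Fin 2) (Fin 2) k) = _
    rw [Submodule.coe_sub, Mrep_ρ_coe]
    simp only [Matrix.mul_assoc]
    exact h3

/-- the invariants -/
theorem card_H0alg_le (P : GL (Fin 2) k) :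
    Nat.card ↥(H0alg (rbP (p := p) rbar P)) ≤ Nat.card (Fix p (Mrep rbar)) := by
  have hinv : ∀ n : ↥(H0alg (rbP (p := p) rbar P)), ∀ g : ↥(Dq p),
      (Mrep rbar).ρ (g : GQ) (⟨(P : Matrix (Fin 2) (Fin 2) k) * n.1 *
        ((P⁻¹ : GL (Fin 2) k) : Matrix (Fin 2) (Fin 2) k), by
          rw [mem_sl2, Matrix.trace_mul_comm, ← Matrix.mul_assoc, GL_inv_mul, Matrix.one_mul]
          exact n.2.1⟩ : sl2 k) = (⟨(P : Matrix (Fin 2) (Fin 2) k) * n.1 *
        ((P⁻¹ : GL (Fin 2) k) : Matrix (Fin 2) (Fin 2) k), by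
          rw [mem_sl2, Matrix.trace_mul_comm, ← Matrix.mul_assoc, GL_inv_mul, Matrix.one_mul]
          exact n.2.1⟩ : sl2 k) := by
    intro n g
    obtain ⟨τ, rfl⟩ := exists_locD_eq g
    apply Subtype.ext
    rw [Mrep_ρ_coe]
    have h2 := n.2.2 τ
    have hnm : n.1 = ((P⁻¹ : GL (Fin 2) k) : Matrix (Fin 2) (Fin 2) k) *
        ((P : Matrix (Fin 2) (Fin 2) k) * n.1 *
          ((P⁻¹ : GL (Fin 2) k) : Matrix (Fin 2) (Fin 2) k)) *
        (P : Matrix (Fin 2) (Fin 2) k) := by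
      simp only [Matrix.mul_assoc, GL_mul_inv_cancel_left, GL_inv_mul, Matrix.mul_one]
    rw [hnm, rbP_conj] at h2
    have h3 := congrArg (fun X => (P : Matrix (Fin 2) (Fin 2) k) * X *
      ((P⁻¹ : GL (Fin 2) k) : Matrix (Fin 2) (Fin 2) k)) h2
    simp only [Matrix.mul_assoc, GL_inv_mul_cancel_left, GL_mul_inv, Matrix.mul_one] at h3
    simp only [locD_coe, Matrix.mul_assoc]
    exact h3
  let ι : ↥(H0alg (rbP (p := p) rbar P)) → Fix p (Mrep rbar) := fun n => ⟨_, hinv n⟩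
  have hι : Function.Injective ι := by
    intro n n' h
    have h1 : (P : Matrix (Fin 2) (Fin 2) k) * n.1 *
        ((P⁻¹ : GL (Fin 2) k) : Matrix (Fin 2) (Fin 2) k) =
        (P : Matrix (Fin 2) (Fin 2) k) * n'.1 *
        ((P⁻¹ : GL (Fin 2) k) : Matrix (Fin 2) (Fin 2) k) :=
      congrArg (fun x : Fix p (Mrep rbar) => ((x.1 : sl2 k) : Matrix (Fin 2) (Fin 2) k)) h
    have h2 := congrArg (fun X => ((P⁻¹ : GL (Fin 2) k) : Matrix (Fin 2) (Fin 2) k) * X *
      (P : Matrix (Fin 2) (Fin 2) k)) h1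
    simp only [Matrix.mul_assoc, GL_mul_inv_cancel_left, GL_inv_mul, Matrix.mul_one] at h2
    exact Subtype.ext h2
  haveI : Finite (Fix p (Mrep rbar)) := by
    haveI : Finite (Matrix (Fin 2) (Fin 2) k) := inferInstance
    haveI : Finite (sl2 k) := Subtype.finite
    exact Subtype.finite
  exact Nat.card_le_card_of_injective ι hι

/-- comparison of quotients along a linear map -/
theorem card_quot_le_of_map {V V' : Type*} [AddCommGroup V] [Module k V] [AddCommGroup V']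
    [Module k V'] (Φ : V →ₗ[k] V') (L B : Submodule k V) (U B' : Submodule k V')
    (hLU : ∀ c ∈ L, Φ c ∈ U) (hB : ∀ c ∈ L, Φ c ∈ B' → c ∈ B)
    [Finite (↥U ⧸ B'.comap U.subtype)] :
    Finite (↥L ⧸ B.comap L.subtype) ∧
      Nat.card (↥L ⧸ B.comap L.subtype) ≤ Nat.card (↥U ⧸ B'.comap U.subtype) := by
  let f : ↥L →ₗ[k] ↥U := Φ.restrict hLU
  let F : ↥L →ₗ[k] (↥U ⧸ B'.comap U.subtype) := (B'.comap U.subtype).mkQ.comp f
  have hker : LinearMap.ker F ≤ B.comap L.subtype := by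
    intro c hc
    rw [LinearMap.mem_ker] at hc
    change Submodule.Quotient.mk (f c) = 0 at hc
    rw [Submodule.Quotient.mk_eq_zero] at hc
    exact hB c.1 c.2 hc
  haveI : Finite ↥(LinearMap.range F) := Subtype.finite
  haveI : Finite (↥L ⧸ LinearMap.ker F) := Finite.of_equiv _ F.quotKerEquivRange.symm.toEquiv
  let G : (↥L ⧸ LinearMap.ker F) →ₗ[k] (↥L ⧸ B.comap L.subtype) :=
    Submodule.mapQ _ _ LinearMap.id hker
  have hG : Function.Surjective G := by
    intro x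
    induction x using Submodule.Quotient.induction_on with
    | _ x => exact ⟨Submodule.Quotient.mk x, rfl⟩
  haveI : Finite (↥L ⧸ B.comap L.subtype) := Finite.of_surjective G hG
  refine ⟨inferInstance, ?_⟩
  calc Nat.card (↥L ⧸ B.comap L.subtype) ≤ Nat.card (↥L ⧸ LinearMap.ker F) :=
        Nat.card_le_card_of_surjective G hG
    _ = Nat.card ↥(LinearMap.range F) := Nat.card_congr F.quotKerEquivRange.toEquiv
    _ ≤ Nat.card (↥U ⧸ B'.comap U.subtype) :=
        Nat.card_le_card_of_injective _ Subtype.val_injective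

/-- **Transport of the bound.**  If `V̄` (conjugated by `P`) is locally flat and `rbar` is
continuous, the flat local condition injects into `flatZ / Balg` of the local model. -/
theorem card_LcOf_quot_le (P : GL (Fin 2) k)
    (hcont : ∃ U ∈ levelsAll.sets, ∀ s ∈ U, rbar s = 1)
    (hflat : IsLocFlat p (actbar (rbP rbar P)))
    [Finite (↥(flatZ (rbP rbar P) hflat) ⧸
      (Balg (rbP rbar P)).comap (flatZ (rbP rbar P) hflat).subtype)] :
    Finite (LocQuot p (Mrep rbar) (LcOf rbar (Pfl p) p)) ∧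
      Nat.card (LocQuot p (Mrep rbar) (LcOf rbar (Pfl p) p)) ≤
      Nat.card (↥(flatZ (rbP rbar P) hflat) ⧸
        (Balg (rbP rbar P)).comap (flatZ (rbP rbar P) hflat).subtype) := by
  refine card_quot_le_of_map (Phi rbar P) _ _ _ _ ?_ fun c _ hc =>
    mem_B1_of_Phi_mem_Balg rbar P hcont hc
  have hle : LcOf rbar (Pfl p) p ≤ (flatZ (rbP rbar P) hflat).comap (Phi rbar P) := by
    refine LcOf_le p _ (fun c hc => ?_) fun L hL => ?_
    · exact Balg_le_flatZ _ hflat (Phi_mem_Balg rbar P hc)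
    · refine ⟨?_, Phi_mem_Zalg rbar P (resFun_mem_Z1 _ (cocOf_mem_Z1g L))⟩
      rw [Phi_resFun_cocOf]
      exact isLocFlat_actV_conj P (isLocFlat_actV_of_isFlatAt L hL.2)
  exact fun c hc => hle hc

end Transport

end Fermat.Agent.S56.Flat.Main
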