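import Fermat.Agent.S56.Flat.Main.Omega
import Fermat.Agent.S56.Flat.Main.Transport

/-!
# PROJECT T (S56), block (a3) `S56/Flat`, `Main/OfS56` (helper16)

From the hypotheses of S56 (`hdet`, `hsplit`, a basis `b` of `ρbar.V` with matrix model `rbar`) to
the hypotheses of `Main/Flat`: `DetIsOmega (locRep rbar)` and `HasEigenvectors (locRep rbar)`.
-/

set_option autoImplicit false
set_option linter.unusedSectionVars false
set_option linter.style.haveILetI false

noncomputable section

namespace Fermat.Agent.S56.Flat.Main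

open Fermat.Agent.S56.Flat.Dict Fermat.Agent.S56.Flat.Dev Fermat.Agent.CFT.LocalBridge
open Fermat.Agent.CFT.LC Fermat.Agent.CFT.Bridge Fermat.Agent.S56.Coh
open Fermat.Agent.S56.Coh.CocDefs
open Fermat.Agent.S53.Dictionary hiding GQ
open Fermat.Agent.S53.TangentBound
open Matrix Polynomial

variable {p : ℕ} [Fact p.Prime] {k : Type} [Field k] [Finite k]

/-- `det rbar = ω` on the local Galois group, from the Prelude's `DetIsCyclotomic`. -/
theorem detIsOmega_of_detIsCyclotomic (ρbar : ResidualGaloisRep k)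
    (hdet : (GaloisRepAdic.ofResidualGaloisRep ρbar).DetIsCyclotomic p)
    (b : Module.Basis (Fin 2) k ρbar.V) (rbar : GQ →* GL (Fin 2) k)
    (hb : ∀ g, (rbar g : Matrix (Fin 2) (Fin 2) k) = LinearMap.toMatrix b b (ρbar.ρ g)) :
    DetIsOmega (locRep (p := p) rbar) := by
  intro s a ha
  obtain ⟨hp, h⟩ := hdet
  have hbot : IsLocalRing.maximalIdeal k = ⊥ :=
    (Ideal.eq_bot_or_top _).resolve_right (Ideal.IsMaximal.ne_top inferInstance)
  have hp0 : (p : k) = 0 := by
    rw [hbot] at hp
    exact hp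
  have h1 := h 1 (localGaloisToGlobal p s) a (fun μ hμ => by
    apply padicEmbedding_injective p
    rw [padicEmbedding_localGaloisToGlobal, map_pow]
    refine ha _ ?_
    have hμ' : μ ^ p = 1 := by rwa [pow_one] at hμ
    rw [← map_pow, hμ', map_one])
  have h0 : ((p ^ 1 : ℕ) : k) = 0 := by
    rw [pow_one, hp0]
  rw [h0, Ideal.span_singleton_eq_bot.mpr rfl, Ideal.mem_bot, sub_eq_zero] at h1
  rw [locRep_apply, hb, LinearMap.det_toMatrix]
  exact h1

/-- every `rbar g` has an eigenvector over `k`, from the splitting of the characteristic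
polynomials. -/
theorem hasEigenvectors_of_hsplit (ρbar : ResidualGaloisRep k)
    (hsplit : ∀ σ : AlgebraicClosure ℚ ≃ₐ[ℚ] AlgebraicClosure ℚ,
      ∃ α β : k, LinearMap.charpoly (ρbar.ρ σ) = (X - C α) * (X - C β))
    (b : Module.Basis (Fin 2) k ρbar.V) (rbar : GQ →* GL (Fin 2) k)
    (hb : ∀ g, (rbar g : Matrix (Fin 2) (Fin 2) k) = LinearMap.toMatrix b b (ρbar.ρ g)) :
    HasEigenvectors (locRep (p := p) rbar) := by
  intro g
  obtain ⟨α, β, hαβ⟩ := hsplit (localGaloisToGlobal p g)
  have hroot : (LinearMap.charpoly (ρbar.ρ (localGaloisToGlobal p g))).IsRoot α := by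
    rw [hαβ, Polynomial.IsRoot, Polynomial.eval_mul, Polynomial.eval_sub, Polynomial.eval_X,
      Polynomial.eval_C, sub_self, zero_mul]
  have hev := (Module.End.hasEigenvalue_iff_isRoot_charpoly _ α).2 hroot
  obtain ⟨w, hw⟩ := hev.exists_hasEigenvector
  refine ⟨b.repr w, ?_, α, ?_⟩
  · intro h0
    apply hw.2
    have : b.repr w = 0 := by
      ext i
      exact congrFun h0 i
    exact b.repr.map_eq_zero_iff.1 this
  · rw [locRep_apply, hb, LinearMap.toMatrix_mulVec_repr, hw.apply_eq_smul, map_smul]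
    rfl

end Fermat.Agent.S56.Flat.Main
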