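/-
PROJECT T (S56), block (a3) Flat, file Main/OmegaSq (leaf (OM) of helper16's final assembly).

The mod `p` cyclotomic character is ONTO `(ZMod p)ˣ` on the inertia group at `p`:

* `map_autToPow_inertia_eq_top` (global): for a place `A` of `ℚ̄` over `p` the image of the inertia
  group of `A` under `IsPrimitiveRoot.autToPow` is everything.  Proof: with `H` the image,
  `N := ∏_{h ∈ H} (1 - ζ ^ h)` is inertia-invariant, so `v(N) ∈ v(p) ^ ℤ` (`S13/Local/Ram`), while
  `v(N) = v(1 - ζ) ^ #H` and `v(1 - ζ) ^ (p - 1) = v(p)` (`Ord/OmegaRam`); hence `(p - 1) ∣ #H`.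
* `exists_mem_localInertia_pow` (local, strong form): every exponent `a` prime to `p` is realised on
  `μ_p ⊆ PadicAlgCl p` by some element of `localInertia p` (transfer along
  `inertiaSubgroupIn_padicPlace`).
* `exists_mem_localInertia_ne_one` (`p ≠ 2`), `exists_mem_localInertia_sq_ne_one` (`5 ≤ p`): the two
  literal statements consumed by `Main/Reducible` (both with `a = 2`).
-/
import Mathlib
import Fermat.Agent.CFT.LocalBridge.Inertia
import Fermat.Agent.CFT.LocalBridge.Krasner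
import Fermat.Agent.S56.Ord.OmegaRam

set_option autoImplicit false

namespace Fermat.Agent.S56.Flat.Main.OmegaSq

open Fermat.Agent.CFT.LocalBridge

local notation "Qbar" => AlgebraicClosure ℚ

section Global

variable {p : ℕ} [Fact p.Prime]

omit [Fact p.Prime] in
theorem pow_mod_of_isPrimitiveRoot {R : Type*} [CommMonoid R] {ζ : R} (hζ : IsPrimitiveRoot ζ p)
    (m : ℕ) : ζ ^ (m % p) = ζ ^ m := by
  conv_rhs => rw [← Nat.mod_add_div m p]
  rw [pow_add, pow_mul, hζ.pow_eq_one, one_pow, mul_one]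

/-- The mod `p` cyclotomic character maps the inertia group of a place over `p` ONTO
`(ZMod p)ˣ`. -/
theorem map_autToPow_inertia_eq_top {ζ : Qbar} (hζ : IsPrimitiveRoot ζ p)
    {A : ValuationSubring Qbar} (hA : A.LiesOverPrime p) :
    (A.inertiaSubgroupIn ℚ).map (hζ.autToPow ℚ) = ⊤ := by
  classical
  have hp : p.Prime := Fact.out
  set χ := hζ.autToPow ℚ with hχ
  set H : Subgroup (ZMod p)ˣ := (A.inertiaSubgroupIn ℚ).map χ with hH
  set N : Qbar := ∏ h : H, (1 - ζ ^ ((h : (ZMod p)ˣ) : ZMod p).val) with hN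
  have hcop : ∀ h : (ZMod p)ˣ, ((h : ZMod p).val).Coprime p := fun h => ZMod.val_coe_unit_coprime h
  have hfix : ∀ s ∈ A.inertiaSubgroupIn ℚ, s N = N := by
    intro s hs
    have hsH : χ s ∈ H := Subgroup.mem_map_of_mem _ hs
    rw [hN, map_prod]
    refine Fintype.prod_equiv (Equiv.mulLeft (⟨χ s, hsH⟩ : H)) _ _ fun h => ?_
    rw [map_sub, map_one, map_pow, ← hζ.autToPow_spec ℚ s, ← pow_mul]
    congr 1
    rw [Equiv.coe_mulLeft, Subgroup.coe_mul, Units.val_mul, ZMod.val_mul,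
      pow_mod_of_isPrimitiveRoot hζ]
  -- valuation of `N`
  have hval : A.valuation N = A.valuation (1 - ζ) ^ Nat.card H := by
    rw [hN, map_prod]
    have : ∀ h ∈ (Finset.univ : Finset H),
        A.valuation (1 - ζ ^ ((h : (ZMod p)ˣ) : ZMod p).val) = A.valuation (1 - ζ) := fun h _ =>
      Fermat.Agent.S56.Ord.OmegaRam.valuation_one_sub_pow_eq A hp hζ (hcop (h : (ZMod p)ˣ))
    rw [Finset.prod_congr rfl this, Finset.prod_const, Finset.card_univ, Nat.card_eq_fintype_card]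
  have h1 := Fermat.Agent.S56.Ord.OmegaRam.valuation_one_sub_pow_pred A hp hζ
  have hv0 : 0 < A.valuation ((p : ℕ) : Qbar) :=
    zero_lt_iff.mpr (Fermat.Agent.S13.Local.Ram.valuation_natCast_ne_zero hp A)
  have hv1 : A.valuation ((p : ℕ) : Qbar) < 1 :=
    Fermat.Agent.S13.Local.Ram.valuation_natCast_lt_one hA
  have hw0 : 0 < A.valuation (1 - ζ) := by
    rw [zero_lt_iff]
    intro h0
    rw [h0, zero_pow (Nat.sub_ne_zero_of_lt hp.one_lt)] at h1
    exact hv0.ne h1
  have hw1 : A.valuation (1 - ζ) ≠ 1 := by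
    intro h0
    rw [h0, one_pow] at h1
    exact hv1.ne h1.symm
  have hN0 : N ≠ 0 := by
    intro h0
    rw [h0, map_zero] at hval
    exact (pow_pos hw0 _).ne hval
  obtain ⟨n, hn⟩ := Fermat.Agent.S13.Local.Ram.exists_zpow_valuation_eq p hA hN0 hfix
  rw [hval, ← h1, ← zpow_natCast, ← zpow_natCast, ← zpow_mul] at hn
  have h2 : ((Nat.card H : ℕ) : ℤ) = ((p - 1 : ℕ) : ℤ) * n := zpow_right_injective₀ hw0 hw1 hn
  have h3 : p - 1 ∣ Nat.card H := by
    have : ((p - 1 : ℕ) : ℤ) ∣ ((Nat.card H : ℕ) : ℤ) := Dvd.intro _ h2.symm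
    exact_mod_cast this
  have hcardG : Nat.card (ZMod p)ˣ = p - 1 := by
    rw [Nat.card_eq_fintype_card, ZMod.card_units_eq_totient, Nat.totient_prime hp]
  have h4 : Nat.card H ≤ p - 1 := hcardG ▸ Subgroup.card_le_card_group H
  have h5 : Nat.card H = p - 1 := le_antisymm h4 (Nat.le_of_dvd Nat.card_pos h3)
  exact (Subgroup.card_eq_iff_eq_top H).1 (h5.trans hcardG.symm)

end Global

section Local

variable {p : ℕ} [Fact p.Prime]

local notation "Ω" => PadicAlgCl p

/-- **Strong form**: every exponent prime to `p` is realised on `μ_p ⊆ Ω` by an element of the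
local inertia group: the mod `p` cyclotomic character is onto `(ZMod p)ˣ` on inertia. -/
theorem exists_mem_localInertia_pow {a : ℕ} (ha : a.Coprime p) :
    ∃ s ∈ localInertia p, ∀ z : Ω, z ^ p = 1 → s z = z ^ a := by
  have hp : p.Prime := Fact.out
  obtain ⟨ζ, hζ⟩ : ∃ ζ : Qbar, IsPrimitiveRoot ζ p := by
    have : NeZero (p : ℚ) := ⟨Nat.cast_ne_zero.2 hp.ne_zero⟩
    exact HasEnoughRootsOfUnity.exists_primitiveRoot Qbar p
  have htop := map_autToPow_inertia_eq_top hζ (liesOverPrime_padicPlace p)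
  have hmem : ZMod.unitOfCoprime a ha ∈ ((padicPlace p).inertiaSubgroupIn ℚ).map (hζ.autToPow ℚ) := by
    rw [htop]
    exact Subgroup.mem_top _
  obtain ⟨s, hs, hsa⟩ := Subgroup.mem_map.1 hmem
  have hsζ : s ζ = ζ ^ a := by
    rw [← hζ.autToPow_spec ℚ s, hsa, ZMod.coe_unitOfCoprime, ZMod.val_natCast,
      pow_mod_of_isPrimitiveRoot hζ]
  rw [inertiaSubgroupIn_padicPlace] at hs
  obtain ⟨τ, hτ, rfl⟩ := Subgroup.mem_map.1 hs
  refine ⟨τ, hτ, fun z hz => ?_⟩
  have hζ' : IsPrimitiveRoot (padicEmbedding p ζ) p :=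
    hζ.map_of_injective (padicEmbedding_injective p)
  obtain ⟨j, -, rfl⟩ := hζ'.eq_pow_of_pow_eq_one hz
  rw [map_pow, ← padicEmbedding_localGaloisToGlobal, hsζ, map_pow, ← pow_mul, ← pow_mul, mul_comm]

/-- **(OM-1)** For `p` odd some element of the local inertia group acts on `μ_p` through an
exponent `≢ 1 mod p`. -/
theorem exists_mem_localInertia_ne_one (hp2 : p ≠ 2) :
    ∃ s ∈ localInertia p, ∃ a : ℕ, (∀ z : Ω, z ^ p = 1 → s z = z ^ a) ∧ (a : ZMod p) ≠ 1 := by
  have hp : p.Prime := Fact.out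
  have h2 : (2 : ℕ).Coprime p :=
    (Nat.coprime_primes Nat.prime_two hp).2 (Ne.symm hp2)
  obtain ⟨s, hs, h⟩ := exists_mem_localInertia_pow h2
  refine ⟨s, hs, 2, h, ?_⟩
  intro h1
  have h3 : ((2 : ℕ) : ZMod p) - 1 = 0 := sub_eq_zero.2 h1
  have h4 : ((1 : ℕ) : ZMod p) = 0 := by
    rw [← h3]; push_cast; ring
  rw [ZMod.natCast_eq_zero_iff] at h4
  exact hp.one_lt.not_ge (Nat.le_of_dvd Nat.one_pos h4)

/-- **(OM-2)** For `p ≥ 5` some element of the local inertia group acts on `μ_p` through an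
exponent whose square is `≢ 1 mod p`. -/
theorem exists_mem_localInertia_sq_ne_one (hp5 : 5 ≤ p) :
    ∃ s ∈ localInertia p, ∃ a : ℕ, (∀ z : Ω, z ^ p = 1 → s z = z ^ a) ∧ (a : ZMod p) ^ 2 ≠ 1 := by
  have hp : p.Prime := Fact.out
  have h2 : (2 : ℕ).Coprime p :=
    (Nat.coprime_primes Nat.prime_two hp).2 (by omega)
  obtain ⟨s, hs, h⟩ := exists_mem_localInertia_pow h2
  refine ⟨s, hs, 2, h, ?_⟩
  intro h1
  have h3 : ((2 : ℕ) : ZMod p) ^ 2 - 1 = 0 := sub_eq_zero.2 h1
  have h4 : ((3 : ℕ) : ZMod p) = 0 := by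
    rw [← h3]; push_cast; ring
  rw [ZMod.natCast_eq_zero_iff] at h4
  have := Nat.le_of_dvd (by norm_num) h4
  omega

end Local

end Fermat.Agent.S56.Flat.Main.OmegaSq
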