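import Fermat.Agent.S56.Flat.Dev.Bound
import Fermat.Agent.S56.Flat.Main.Omega
import Fermat.Agent.S56.Flat.Main.Transport
import Fermat.Agent.S56.Flat.T2.Export

/-!
# PROJECT T (S56), block (a3) `S56/Flat`, `Main/Reducible` (helper16)

The reducible case: `rb : LocGal p →* GL₂(k)` upper triangular, `V̄` locally flat,
`det rb = ω`.  From the character count `SeamChar` (helper27), the two facts about `ω` on inertia
and T2 (helper29) we get `#(flatZ / Balg) ≤ #k · #H⁰`.
-/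

set_option autoImplicit false
set_option linter.unusedSectionVars false
set_option linter.style.haveILetI false

noncomputable section

namespace Fermat.Agent.S56.Flat.Main

open Fermat.Agent.S56.Flat.Dict Fermat.Agent.S56.Flat.Dev Fermat.Agent.CFT.LocalBridge Matrix

variable {p : ℕ} [Fact p.Prime] {k : Type} [Field k]

/-- **The seam with the character count (S27-A).**  For continuous characters `χ'`, `χ''` of
`LocGal p` with values in `kˣ`: the classes of the locally flat extensions of `k(χ')` by `k(χ'')`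
lie in a set of at most `#k ^ 2` elements, and of at most `#k` elements when `χ''/χ'` is not the
cyclotomic character on inertia. -/
def SeamChar (p : ℕ) [Fact p.Prime] (k : Type) [Field k] : Prop :=
  ∀ χ' χ'' : LocGal p →* kˣ,
    (∃ LV : IntermediateField ℚ_[p] (PadicAlgCl p), FiniteDimensional ℚ_[p] LV ∧
      LV.fixingSubgroup ≤ χ'.ker ∧ LV.fixingSubgroup ≤ χ''.ker) →
    ExtBound (fun g => ((χ' g : kˣ) : k)) (fun g => ((χ'' g : kˣ) : k)) (Nat.card k ^ 2) ∧
    (NeOmegaOnInertia (fun g => ((χ'' g : kˣ) : k) / ((χ' g : kˣ) : k)) →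
      ExtBound (fun g => ((χ' g : kˣ) : k)) (fun g => ((χ'' g : kˣ) : k)) (Nat.card k))

/-! ### the diagonal characters of an upper triangular representation -/

section UT

variable {rb : LocGal p →* GL (Fin 2) k}

theorem chi1_mul (hUT : IsUT rb) (g h : LocGal p) :
    chi1 rb (g * h) = chi1 rb g * chi1 rb h := by
  simp only [chi1, map_mul, Units.val_mul, Matrix.mul_apply, Fin.sum_univ_two, hUT h, mul_zero,
    add_zero]

theorem chi2_mul (hUT : IsUT rb) (g h : LocGal p) :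
    chi2 rb (g * h) = chi2 rb g * chi2 rb h := by
  simp only [chi2, map_mul, Units.val_mul, Matrix.mul_apply, Fin.sum_univ_two, hUT g, zero_mul,
    zero_add]

theorem chi1_one : chi1 rb 1 = 1 := by simp [chi1]

theorem chi2_one : chi2 rb 1 = 1 := by simp [chi2]

/-- the first diagonal character as a homomorphism to `kˣ` -/
def chiHom1 (hUT : IsUT rb) : LocGal p →* kˣ :=
  MonoidHom.toHomUnits { toFun := chi1 rb, map_one' := chi1_one, map_mul' := chi1_mul hUT }

/-- the second diagonal character as a homomorphism to `kˣ` -/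
def chiHom2 (hUT : IsUT rb) : LocGal p →* kˣ :=
  MonoidHom.toHomUnits { toFun := chi2 rb, map_one' := chi2_one, map_mul' := chi2_mul hUT }

theorem coe_chiHom1 (hUT : IsUT rb) : (fun g => ((chiHom1 hUT g : kˣ) : k)) = chi1 rb := by
  funext g
  exact MonoidHom.coe_toHomUnits _ g

theorem coe_chiHom2 (hUT : IsUT rb) : (fun g => ((chiHom2 hUT g : kˣ) : k)) = chi2 rb := by
  funext g
  exact MonoidHom.coe_toHomUnits _ g

theorem chi1_ne_zero (hUT : IsUT rb) (g : LocGal p) : chi1 rb g ≠ 0 := by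
  rw [← congrFun (coe_chiHom1 hUT) g]
  exact Units.ne_zero _

theorem chi2_ne_zero (hUT : IsUT rb) (g : LocGal p) : chi2 rb g ≠ 0 := by
  rw [← congrFun (coe_chiHom2 hUT) g]
  exact Units.ne_zero _

theorem chiHom1_eq_one (hUT : IsUT rb) {σ : LocGal p} (h : rb σ = 1) : chiHom1 hUT σ = 1 := by
  apply Units.ext
  rw [congrFun (coe_chiHom1 hUT) σ, Units.val_one, chi1, h, Units.val_one, Matrix.one_apply_eq]

theorem chiHom2_eq_one (hUT : IsUT rb) {σ : LocGal p} (h : rb σ = 1) : chiHom2 hUT σ = 1 := by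
  apply Units.ext
  rw [congrFun (coe_chiHom2 hUT) σ, Units.val_one, chi2, h, Units.val_one, Matrix.one_apply_eq]

theorem det_eq_chi_mul (hUT : IsUT rb) (g : LocGal p) :
    (rb g : Matrix (Fin 2) (Fin 2) k).det = chi1 rb g * chi2 rb g := by
  rw [Matrix.det_fin_two, hUT g, mul_zero, sub_zero]
  rfl

end UT

theorem SeamChar.apply (hS : SeamChar p k) (χ' χ'' : LocGal p →* kˣ)
    (hcont : ∃ LV : IntermediateField ℚ_[p] (PadicAlgCl p), FiniteDimensional ℚ_[p] LV ∧
      LV.fixingSubgroup ≤ χ'.ker ∧ LV.fixingSubgroup ≤ χ''.ker) {f' f'' : LocGal p → k}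
    (hf' : ∀ g, ((χ' g : kˣ) : k) = f' g) (hf'' : ∀ g, ((χ'' g : kˣ) : k) = f'' g) :
    ExtBound f' f'' (Nat.card k ^ 2) ∧
      (NeOmegaOnInertia (fun g => f'' g / f' g) → ExtBound f' f'' (Nat.card k)) := by
  obtain rfl : (fun g => ((χ' g : kˣ) : k)) = f' := funext hf'
  obtain rfl : (fun g => ((χ'' g : kˣ) : k)) = f'' := funext hf''
  exact hS χ' χ'' hcont

/-! ### the case `p = 3` -/

section Three

variable [CharP k p] {rb : LocGal p →* GL (Fin 2) k}

theorem natCast_eq_one_or_neg_one (hp3 : p = 3) {a : ℕ} (ha : ¬ p ∣ a) :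
    (a : k) = 1 ∨ (a : k) = -1 := by
  subst hp3
  have h1 : (a : k) = ((a % 3 : ℕ) : k) :=
    (CharP.natCast_eq_natCast k 3).2 (Nat.mod_modEq a 3).symm
  have h3 : ((3 : ℕ) : k) = 0 := CharP.cast_eq_zero k 3
  have hlt : a % 3 < 3 := Nat.mod_lt _ (by norm_num)
  have hne : a % 3 ≠ 0 := fun h => ha (Nat.dvd_of_mod_eq_zero h)
  have : a % 3 = 1 ∨ a % 3 = 2 := by omega
  rcases this with h | h
  · left
    rw [h1, h, Nat.cast_one]
  · right
    rw [h1, h]
    have : ((2 : ℕ) : k) + 1 = 0 := by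
      have : ((2 : ℕ) : k) + 1 = ((3 : ℕ) : k) := by push_cast; norm_num
      rw [this, h3]
    exact eq_neg_of_add_eq_zero_left this

/-- `p = 3`: if `χ₂/χ₁ = ω` on inertia and `χ₁` is ramified, then `χ₁ = ω` on inertia and `χ₂`
is unramified. -/
theorem chi2_unramified_of_three (hp3 : p = 3) (hUT : IsUT rb) (hdet : DetIsOmega rb)
    (hab1 : ∀ s ∈ localInertia p, ActsOnMuP s 1 → chi1 rb s = 1)
    (hψ : ¬ NeOmegaOnInertia (fun g => chi2 rb g / chi1 rb g))
    (hram : ∃ s ∈ localInertia p, chi1 rb s ≠ 1) :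
    ∀ s ∈ localInertia p, chi2 rb s = 1 := by
  have E1 : ∀ s ∈ localInertia p, ∀ a : ℕ, ActsOnMuP s a → chi2 rb s = (a : k) * chi1 rb s := by
    intro s hs a ha
    by_contra hne
    apply hψ
    refine ⟨s, hs, a, ha, fun h => hne ?_⟩
    rw [← h, div_mul_cancel₀ _ (chi1_ne_zero hUT s)]
  have E2 : ∀ (s : LocGal p) (a : ℕ), ActsOnMuP s a → chi1 rb s * chi2 rb s = (a : k) := by
    intro s a ha
    rw [← det_eq_chi_mul hUT]
    exact hdet s a ha
  have sq : ∀ s ∈ localInertia p, chi1 rb s * chi1 rb s = 1 := by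
    intro s hs
    obtain ⟨a, ha⟩ := exists_actsOnMuP s
    have h1 := E2 s a ha
    rw [E1 s hs a ha] at h1
    have ha0 : (a : k) ≠ 0 := ha.natCast_ne_zero
    have h2 : (a : k) * (chi1 rb s * chi1 rb s - 1) = 0 := by linear_combination h1
    have h3 := (mul_eq_zero.1 h2).resolve_left ha0
    exact sub_eq_zero.1 h3
  have pm : ∀ x : k, x * x = 1 → x = 1 ∨ x = -1 := by
    intro x hx
    have : (x - 1) * (x + 1) = 0 := by linear_combination hx
    rcases mul_eq_zero.1 this with h | h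
    · exact Or.inl (sub_eq_zero.1 h)
    · exact Or.inr (eq_neg_of_add_eq_zero_left h)
  obtain ⟨s₁, hs₁, hne₁⟩ := hram
  obtain ⟨a₁, ha₁⟩ := exists_actsOnMuP s₁
  have hχ₁ : chi1 rb s₁ = -1 := (pm _ (sq s₁ hs₁)).resolve_left hne₁
  have one_of : ∀ (s : LocGal p) (a : ℕ), s ∈ localInertia p → ActsOnMuP s a → (a : k) = 1 →
      chi1 rb s = 1 := by
    intro s a hs ha h1
    have hmod : a ≡ 1 [MOD p] := (CharP.natCast_eq_natCast k p).1 (by rw [h1, Nat.cast_one])
    exact hab1 s hs (ha.congr hmod)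
  have ha₁' : (a₁ : k) = -1 := by
    rcases natCast_eq_one_or_neg_one (k := k) hp3 ha₁.not_dvd with h | h
    · exact absurd (one_of s₁ a₁ hs₁ ha₁ h) hne₁
    · exact h
  have key : ∀ s ∈ localInertia p, ∀ a : ℕ, ActsOnMuP s a → chi1 rb s = (a : k) := by
    intro s hs a ha
    rcases natCast_eq_one_or_neg_one (k := k) hp3 ha.not_dvd with h | h
    · rw [h]
      exact one_of s a hs ha h
    · have h2 : chi1 rb (s * s₁) = 1 := by
        refine one_of (s * s₁) (a * a₁) (Subgroup.mul_mem _ hs hs₁) (ha.mul ha₁) ?_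
        rw [Nat.cast_mul, h, ha₁']
        ring
      rw [chi1_mul hUT, hχ₁] at h2
      rw [h]
      linear_combination -h2
  intro s hs
  obtain ⟨a, ha⟩ := exists_actsOnMuP s
  rw [E1 s hs a ha, key s hs a ha]
  rcases natCast_eq_one_or_neg_one (k := k) hp3 ha.not_dvd with h | h
  · rw [h]; ring
  · rw [h]; ring

end Three

/-! ### the bound -/

section Bound

variable [Finite k] [CharP k p]

theorem neOmega_one_of_OR {rb : LocGal p →* GL (Fin 2) k} (hUT : IsUT rb)
    (hOR : ∃ s ∈ localInertia p, ∃ a : ℕ, ActsOnMuP s a ∧ (a : ZMod p) ≠ 1) :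
    NeOmegaOnInertia (fun g => chi1 rb g / chi1 rb g) := by
  obtain ⟨s, hs, a, ha, ha1⟩ := hOR
  refine ⟨s, hs, a, ha, ?_⟩
  change chi1 rb s / chi1 rb s ≠ (a : k)
  rw [div_self (chi1_ne_zero hUT s)]
  intro h
  exact ha1 ((natCast_eq_one_iff (p := p) (k := k) a).1 h.symm)

/-- **The reducible case.** -/
theorem card_flatZ_quot_le_of_UT_main (hp2 : p ≠ 2) (rb : LocGal p →* GL (Fin 2) k)
    (hflat : IsLocFlat p (actbar rb)) (hUT : IsUT rb)
    (LV : IntermediateField ℚ_[p] (PadicAlgCl p)) [FiniteDimensional ℚ_[p] LV]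
    (hLV : ∀ σ ∈ LV.fixingSubgroup, rb σ = 1) (hS : SeamChar p k) (hdet : DetIsOmega rb)
    (hOR : ∃ s ∈ localInertia p, ∃ a : ℕ, ActsOnMuP s a ∧ (a : ZMod p) ≠ 1)
    (hO2 : 5 ≤ p → ∃ s ∈ localInertia p, ∃ a : ℕ, ActsOnMuP s a ∧ (a : ZMod p) ^ 2 ≠ 1)
    (hab1 : p = 3 → ∀ s ∈ localInertia p, ActsOnMuP s 1 → chi1 rb s = 1)
    (hgood : p = 3 → (∀ s ∈ localInertia p, chi1 rb s = 1) →
      ∀ s ∈ localInertia p, chi2 rb s = 1) :
    Finite (↥(flatZ rb hflat) ⧸ (Balg rb).comap (flatZ rb hflat).subtype) ∧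
      Nat.card (↥(flatZ rb hflat) ⧸ (Balg rb).comap (flatZ rb hflat).subtype) ≤
        Nat.card k * Nat.card ↥(H0alg rb) := by
  have hq : 0 < Nat.card k := Nat.card_pos
  have hc1 : ∀ g, ((chiHom1 hUT g : kˣ) : k) = chi1 rb g := fun g => congrFun (coe_chiHom1 hUT) g
  have hc2 : ∀ g, ((chiHom2 hUT g : kˣ) : k) = chi2 rb g := fun g => congrFun (coe_chiHom2 hUT) g
  have hk1 : LV.fixingSubgroup ≤ (chiHom1 hUT).ker := fun σ hσ =>
    MonoidHom.mem_ker.2 (chiHom1_eq_one hUT (hLV σ hσ))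
  have hk2 : LV.fixingSubgroup ≤ (chiHom2 hUT).ker := fun σ hσ =>
    MonoidHom.mem_ker.2 (chiHom2_eq_one hUT (hLV σ hσ))
  have S11 := hS.apply (chiHom1 hUT) (chiHom1 hUT) ⟨LV, inferInstance, hk1, hk1⟩ hc1 hc1
  have S12 := hS.apply (chiHom1 hUT) (chiHom2 hUT) ⟨LV, inferInstance, hk1, hk2⟩ hc1 hc2
  have S21 := hS.apply (chiHom2 hUT) (chiHom1 hUT) ⟨LV, inferInstance, hk2, hk1⟩ hc2 hc1
  have H₂ : ExtBound (chi1 rb) (chi1 rb) (Nat.card k) := S11.2 (neOmega_one_of_OR hUT hOR)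
  -- three bounds with product `q⁴`
  have fin3 : ∀ n₁ n₃ : ℕ, ExtBound (chi1 rb) (chi2 rb) n₁ → ExtBound (chi2 rb) (chi1 rb) n₃ →
      n₁ * n₃ = Nat.card k ^ 3 →
      Finite (↥(flatZ rb hflat) ⧸ (Balg rb).comap (flatZ rb hflat).subtype) ∧
        Nat.card (↥(flatZ rb hflat) ⧸ (Balg rb).comap (flatZ rb hflat).subtype) ≤
          Nat.card k * Nat.card ↥(H0alg rb) := by
    intro n₁ n₃ H₁ H₃ hn
    obtain ⟨hfin, hle⟩ := card_flatZ_quot_le_of_UT rb hflat hUT n₁ (Nat.card k) n₃ H₁ H₂ H₃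
    refine ⟨hfin, ?_⟩
    have h1 : n₁ * (Nat.card k * n₃) = Nat.card k * Nat.card k ^ 3 := by
      rw [← hn]; ring
    rw [h1] at hle
    refine Nat.le_of_mul_le_mul_right (hle.trans (le_of_eq ?_)) (pow_pos hq 3)
    ring
  by_cases h1 : NeOmegaOnInertia (fun g => chi2 rb g / chi1 rb g)
  · exact fin3 _ _ (S12.2 h1) S21.1 (by ring)
  by_cases h2 : NeOmegaOnInertia (fun g => chi1 rb g / chi2 rb g)
  · exact fin3 _ _ S12.1 (S21.2 h2) (by ring)
  -- both fail: `p = 3`
  have E1 : ∀ s ∈ localInertia p, ∀ a : ℕ, ActsOnMuP s a → chi2 rb s / chi1 rb s = (a : k) := by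
    intro s hs a ha
    by_contra hne
    exact h1 ⟨s, hs, a, ha, hne⟩
  have E1' : ∀ s ∈ localInertia p, ∀ a : ℕ, ActsOnMuP s a → chi1 rb s / chi2 rb s = (a : k) := by
    intro s hs a ha
    by_contra hne
    exact h2 ⟨s, hs, a, ha, hne⟩
  have hp3 : p = 3 := by
    by_contra hne
    have hp5 : 5 ≤ p := by
      have hpr : p.Prime := Fact.out
      have h2 := hpr.two_le
      by_contra hlt
      have : p = 2 ∨ p = 3 ∨ p = 4 := by omega
      rcases this with h | h | h
      · exact hp2 h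
      · exact hne h
      · rw [h] at hpr
        exact absurd hpr (by norm_num)
    obtain ⟨s, hs, a, ha, ha2⟩ := hO2 hp5
    apply ha2
    rw [← natCast_sq_eq_one_iff (p := p) (k := k)]
    have e1 := E1 s hs a ha
    have e2 := E1' s hs a ha
    have hn1 := chi1_ne_zero hUT s
    have hn2 := chi2_ne_zero hUT s
    have e3 : (a : k) ^ 2 = (chi2 rb s / chi1 rb s) * (chi1 rb s / chi2 rb s) := by
      rw [e1, e2, sq]
    rw [e3]
    field_simp
  -- `χ₁` is ramified
  have hram : ∃ s ∈ localInertia p, chi1 rb s ≠ 1 := by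
    by_contra hno
    have hunr1 : ∀ s ∈ localInertia p, chi1 rb s = 1 := by
      intro s hs
      by_contra hne
      exact hno ⟨s, hs, hne⟩
    have hunr2 := hgood hp3 hunr1
    obtain ⟨s, hs, a, ha, ha1⟩ := hOR
    apply ha1
    rw [← natCast_eq_one_iff (p := p) (k := k), ← E1 s hs a ha, hunr1 s hs, hunr2 s hs, div_one]
  have hunr2 := chi2_unramified_of_three hp3 hUT hdet (hab1 hp3) h1 hram
  have hp3' : 3 ≤ p := hp3.ge
  obtain ⟨hfin, hle⟩ := card_flatZ_quot_le_of_UT_of_T2 rb hflat hUT (Nat.card k)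
    (Nat.card k ^ 2)
    (fun c hc => Fermat.Agent.S56.Flat.T2.Export.lowerLeft_coboundary hp3' rb c hUT hram hunr2
      hc.2.1 hc.1) H₂ S21.1
  refine ⟨hfin, ?_⟩
  refine Nat.le_of_mul_le_mul_right (hle.trans (le_of_eq ?_)) (pow_pos hq 2)
  ring

/-! ### exchanging the two characters when the extension splits -/

/-- the matrix `[[-t, 1], [1, 0]]` -/
def swapMat (t : k) : GL (Fin 2) k :=
  ⟨!![-t, 1; 1, 0], !![0, 1; 1, t],
    by
      ext i j
      fin_cases i <;> fin_cases j <;> simp [Matrix.mul_apply, Fin.sum_univ_two],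
    by
      ext i j
      fin_cases i <;> fin_cases j <;> simp [Matrix.mul_apply, Fin.sum_univ_two]⟩

/-- **(T2-A) consumed**: `χ₁` unramified, `χ₂` ramified, `V̄` flat: in another basis the
representation is diagonal with the two characters exchanged. -/
theorem exists_swap (hp3 : 3 ≤ p) {rb : LocGal p →* GL (Fin 2) k} (hUT : IsUT rb)
    (hflat : IsLocFlat p (actbar rb)) (hunr : ∀ s ∈ localInertia p, chi1 rb s = 1)
    (hram : ∃ s ∈ localInertia p, chi2 rb s ≠ 1) :
    ∃ Q : GL (Fin 2) k, IsUT (conjRep rb Q) ∧ chi1 (conjRep rb Q) = chi2 rb ∧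
      chi2 (conjRep rb Q) = chi1 rb := by
  obtain ⟨t, ht⟩ := Fermat.Agent.S56.Flat.T2.Export.split_of_flat hp3 rb hUT hunr hram hflat
  have hconj : ∀ g, (conjRep rb (swapMat t) g : Matrix (Fin 2) (Fin 2) k) =
      !![chi2 rb g, 0; 0, chi1 rb g] := by
    intro g
    rw [conjRep_coe]
    have hQ : ((swapMat t : GL (Fin 2) k) : Matrix (Fin 2) (Fin 2) k) = !![-t, 1; 1, 0] := rfl
    have hQi : (((swapMat t)⁻¹ : GL (Fin 2) k) : Matrix (Fin 2) (Fin 2) k) =
        !![0, 1; 1, t] := rfl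
    rw [hQ, hQi]
    have h10 := hUT g
    have h01 := ht g
    ext i j
    fin_cases i <;> fin_cases j <;>
      simp only [Matrix.mul_apply, Fin.sum_univ_two] <;>
      simp [chi1, chi2, h10, h01] <;> ring
  refine ⟨swapMat t, fun g => ?_, ?_, ?_⟩
  · rw [hconj]
    simp
  · funext g
    rw [chi1, hconj]
    simp
  · funext g
    rw [chi2, hconj]
    simp

end Bound

end Fermat.Agent.S56.Flat.Main
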