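import Fermat.Agent.S56.Flat.Main.Flat
import Fermat.Agent.S56.Flat.Main.OfS56
import Fermat.Agent.S56.Flat.Main.OmegaSq
import Fermat.Agent.S56.Flat.Main.CharInertia
import Fermat.Agent.S56.Tame.Chain

/-!
# PROJECT T (S56), block (a3) `S56/Flat`, `Main/Seams` (helper16)

The seams of `Main/Flat` which are theorems on main: the two facts about `ω` on inertia
(`Main/OmegaSq`, helper6), the abelian tame fact (`Main/CharInertia`, helper29), the chain
(`Tame/Chain`, helper24), and the hypotheses of S56 (`Main/OfS56`).  What remains are the two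
counting seams `SeamChar` and `SeamIrr`.
-/

set_option autoImplicit false
set_option linter.unusedSectionVars false
set_option linter.style.haveILetI false

noncomputable section

namespace Fermat.Agent.S56.Flat.Main

open Fermat.Agent.S56.Flat.Dict Fermat.Agent.S56.Flat.Dev Fermat.Agent.CFT.LocalBridge
open Fermat.Agent.CFT.LC Fermat.Agent.CFT.Bridge Fermat.Agent.S56.Coh
open Fermat.Agent.S56.Coh.CocDefs
open Fermat.Agent.S53.Dictionary hiding GQ
open Fermat.Agent.S53.TangentBound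
open Matrix Polynomial

variable {p : ℕ} [Fact p.Prime] {k : Type} [Field k] [Finite k]

local notation "Ω" => PadicAlgCl p

/-- continuity of the matrix model of a residual representation -/
theorem hcont_of_residual (ρbar : ResidualGaloisRep k) (b : Module.Basis (Fin 2) k ρbar.V)
    (rbar : GQ →* GL (Fin 2) k)
    (hb : ∀ g, (rbar g : Matrix (Fin 2) (Fin 2) k) = LinearMap.toMatrix b b (ρbar.ρ g)) :
    ∃ U ∈ levelsAll.sets, ∀ s ∈ U, rbar s = 1 := by
  obtain ⟨L, hL, h1⟩ := ρbar.factorsThroughFiniteLevel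
  haveI := hL
  obtain ⟨U, hU, hUL⟩ := exists_levelAll_le L
  refine ⟨U, hU, fun s hs => ?_⟩
  have hs' : ∀ x ∈ L, s x = x := fun x hx =>
    (IntermediateField.mem_fixingSubgroup_iff L s).1 (hUL hs) x hx
  apply Units.ext
  rw [hb, h1 s hs', Units.val_one]
  exact LinearMap.toMatrix_one b

/-- the image of the local representation is the image of the decomposition group -/
theorem range_locRep (rbar : GQ →* GL (Fin 2) k) :
    (locRep (p := p) rbar).range = (Dq p).map rbar := by
  ext g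
  constructor
  · rintro ⟨τ, rfl⟩
    exact ⟨localGaloisToGlobal p τ, (locD τ : ↥(Dq p)).2, rfl⟩
  · rintro ⟨σ, hσ, rfl⟩
    obtain ⟨τ, hτ⟩ := exists_locD_eq (⟨σ, hσ⟩ : ↥(Dq p))
    refine ⟨τ, ?_⟩
    rw [locRep_apply]
    exact congrArg rbar (congrArg Subtype.val hτ)

/-- **the chain seam** (helper24's `Tame/Chain`) -/
theorem chainFor_locRep (rbar : GQ →* GL (Fin 2) k)
    (hcont : ∃ U ∈ levelsAll.sets, ∀ s ∈ U, rbar s = 1) : ChainFor (locRep (p := p) rbar) := by
  obtain ⟨U, hU, hUr⟩ := hcont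
  obtain ⟨W, τ, φ, hWp, -, hτ, hφ, hWn, hτn, hgen⟩ :=
    Fermat.Agent.S56.Tame.Chain.exists_wild_tame_chain p rbar
      ⟨U, hU, fun s hs => MonoidHom.mem_ker.2 (hUr s hs)⟩
  rw [← range_locRep] at hτ hφ hWn hτn hgen
  exact ⟨W, τ, φ, hWp, hτ, hφ, hWn, hτn, hgen⟩

/-- **the abelian tame seam** (helper29's `Main/CharInertia`) -/
theorem hFab_holds [CharP k p] (χ : LocGal p →* kˣ) (LV : IntermediateField ℚ_[p] Ω)
    (hfd : FiniteDimensional ℚ_[p] LV) (hker : LV.fixingSubgroup ≤ χ.ker) (s : LocGal p)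
    (hs : s ∈ localInertia p) (h1 : ActsOnMuP s 1) : χ s = 1 := by
  haveI := hfd
  obtain ⟨ζ, hζ⟩ := exists_primitiveRoot_p (p := p)
  exact Fermat.Agent.S56.Flat.Main.CharInertia.eq_one_of_mem_inertia_of_fix
    (not_dvd_card_units p k) χ LV hker hζ hs (by rw [h1 ζ hζ.pow_eq_one, pow_one])

/-- **(a3), modulo the two counting seams**, from the hypotheses of S56. -/
theorem card_LcOf_fl_le_of_counting_seams [CharP k p] (hp2 : p ≠ 2)
    (ρbar : ResidualGaloisRep k)
    (hdet : (GaloisRepAdic.ofResidualGaloisRep ρbar).DetIsCyclotomic p)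
    (hsplit : ∀ σ : AlgebraicClosure ℚ ≃ₐ[ℚ] AlgebraicClosure ℚ,
      ∃ α β : k, LinearMap.charpoly (ρbar.ρ σ) = (X - C α) * (X - C β))
    (b : Module.Basis (Fin 2) k ρbar.V) (rbar : GQ →* GL (Fin 2) k)
    (hb : ∀ g, (rbar g : Matrix (Fin 2) (Fin 2) k) = LinearMap.toMatrix b b (ρbar.ρ g))
    (hSC : SeamChar p k) (hSI : SeamIrr p k) :
    Finite (LocQuot p (Mrep rbar) (LcOf rbar (Pfl p) p)) ∧
      Nat.card (LocQuot p (Mrep rbar) (LcOf rbar (Pfl p) p)) ≤
        Nat.card k * Nat.card (Fix p (Mrep rbar)) :=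
  card_LcOf_fl_le_of_seams rbar hp2 (hasEigenvectors_of_hsplit ρbar hsplit b rbar hb)
    (detIsOmega_of_detIsCyclotomic ρbar hdet b rbar hb) hSC hSI
    (OmegaSq.exists_mem_localInertia_ne_one hp2)
    (fun h5 => OmegaSq.exists_mem_localInertia_sq_ne_one h5)
    (fun χ LV hfd hker s hs h1 => hFab_holds χ LV hfd hker s hs h1)
    (fun _ => chainFor_locRep rbar (hcont_of_residual ρbar b rbar hb))

end Fermat.Agent.S56.Flat.Main
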